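import Mathlib
import Fermat.Prelude.Def_FLTPrelim_Ramification
import Fermat.Agent.Common.FrobProfinite
import Fermat.Agent.Common.FrobLemmaX
import Fermat.Agent.Common.FrobGlue

/-!
# S13, piece P7: Minkowski glue

A normal subgroup `K` of `Gal(ℚ̄/ℚ)` which contains the fixing subgroup of a finite-dimensional
intermediate field and, for every prime `q`, the inertia subgroup (in the prelude's sense
`A.inertiaSubgroupIn ℚ`) of SOME valuation subring `A` of `ℚ̄` over `q`, is everything.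

Route: the fixed field `L` of `K` is a finite Galois extension of `ℚ`.  If `L ≠ ℚ`, Mathlib's
`NumberField.exists_not_isUnramifiedAt_int_of_isGalois` (Hermite–Minkowski) gives a prime `ℓ` all
of whose primes in `L` are ramified, so that for every place `A | ℓ` the inertia group of
`A ∩ 𝓞 L` in `Gal(L/ℚ)` is nontrivial (`Ideal.card_inertia_eq_ramificationIdxIn`); a nontrivial
element lifts to the inertia group of `A` in `Gal(ℚ̄/ℚ)` (`exists_inertia_lift`, by the profinite
transitivity and `stabilizerHom` surjectivity of `Mathlib.RingTheory.Invariant.Profinite` applied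
to `Gal(ℚ̄/L)`), which contradicts `I_A ≤ K = Gal(ℚ̄/L)`.

Main statements (namespace `Fermat.Agent.S13.Minkowski`):
* `mem_inertiaSubgroupIn_of_forall` : `σ b - b ∈ 𝔪_A` on the Galois-stable ring ⇒ `σ ∈ I_A`;
* `exists_int_mul_isIntegral` : elements of the Galois-stable ring are `ℓ`-integral;
* `exists_prime_forall_exists_inert` : the finite level;
* `exists_inertia_lift` : lifting of inertia from `Gal(L/ℚ)` to `Gal(ℚ̄/ℚ)`;
* `eq_top_of_inertia_le`, `minkowski_glue` : the glue.
-/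

set_option autoImplicit false
set_option linter.style.haveILetI false

open scoped Pointwise NumberField
open Polynomial

namespace Fermat.Agent.S13.Minkowski

open Fermat.Agent.Common

/-- Inertia glue: an automorphism acting trivially modulo `𝔪_A` on the Galois-stable ring
lies in the inertia subgroup of `A`. -/
theorem mem_inertiaSubgroupIn_of_forall {ℓ : ℕ} (hℓ : ℓ.Prime)
    (A : ValuationSubring (AlgebraicClosure ℚ)) (hA : A.LiesOverPrime ℓ)
    (σ : AlgebraicClosure ℚ ≃ₐ[ℚ] AlgebraicClosure ℚ)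
    (hσ : ∀ b : AlgebraicClosure ℚ,
      (∀ g : AlgebraicClosure ℚ ≃ₐ[ℚ] AlgebraicClosure ℚ, g b ∈ A) → σ b - b ∈ A.nonunits) :
    σ ∈ A.inertiaSubgroupIn ℚ := by
  have h := frob_glue_general (K := ℚ) 1 A σ
    (fun b hb => by simpa using hσ b hb)
    (fun x hx => lemmaX_frob ℓ hℓ A hA x hx)
  obtain ⟨hmem, hres⟩ := h
  refine ⟨⟨σ, hmem⟩, ?_, rfl⟩
  show (⟨σ, hmem⟩ : A.decompositionSubgroup ℚ) ∈ A.inertiaSubgroup ℚ
  rw [ValuationSubring.inertiaSubgroup, MonoidHom.mem_ker]
  ext x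
  simpa using hres x

/-- Clearing denominators: if `f` is monic over `S`, `f(b) = 0` and `n • (coeff f i)` lies in the
range of `algebraMap R S` for `i < natDegree f`, then `n • b` is integral over `R`. -/
theorem isIntegral_smul_of_coeff_mem {R S : Type*} [CommRing R] [CommRing S] [Algebra R S]
    (f : S[X]) (hf : f.Monic) (b : S) (hb : f.eval b = 0) (n : R)
    (hn : ∀ i < f.natDegree, algebraMap R S n * f.coeff i ∈ (algebraMap R S).range) :
    IsIntegral R (algebraMap R S n * b) := by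
  set g : S[X] := scaleRoots f (algebraMap R S n) with hg
  have hgm : g.Monic := (monic_scaleRoots_iff _).mpr hf
  have hlift : g ∈ Polynomial.lifts (algebraMap R S) := by
    rw [Polynomial.lifts_iff_coeff_lifts]
    intro i
    rw [hg, coeff_scaleRoots]
    rcases lt_trichotomy i f.natDegree with h | h | h
    · obtain ⟨k, hk⟩ : ∃ k, f.natDegree - i = k + 1 := ⟨f.natDegree - i - 1, by omega⟩
      obtain ⟨m, hm⟩ := hn i h
      refine ⟨m * n ^ k, ?_⟩
      rw [map_mul, map_pow, hm, hk, pow_succ]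
      ring
    · subst h
      rw [Nat.sub_self, pow_zero, mul_one, hf.coeff_natDegree]
      exact ⟨1, map_one _⟩
    · rw [coeff_eq_zero_of_natDegree_lt h, zero_mul]
      exact ⟨0, map_zero _⟩
  obtain ⟨g', hg'map, -, hg'monic⟩ := Polynomial.lifts_and_natDegree_eq_and_monic hlift hgm
  refine ⟨g', hg'monic, ?_⟩
  rw [Polynomial.eval₂_eq_eval_map, hg'map, hg]
  have := scaleRoots_eval₂_eq_zero (p := f) (RingHom.id S) (r := b) (s := algebraMap R S n)
    (by simpa [eval₂_id] using hb)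
  simpa [eval₂_id] using this

/-- A rational number lying in a valuation subring of `ℚ̄` over `ℓ` has denominator prime
to `ℓ`. -/
theorem not_dvd_den_of_mem {ℓ : ℕ} (hℓ : ℓ.Prime)
    (A : ValuationSubring (AlgebraicClosure ℚ)) (hA : A.LiesOverPrime ℓ)
    (q : ℚ) (hq : algebraMap ℚ (AlgebraicClosure ℚ) q ∈ A) : ¬ (ℓ : ℤ) ∣ (q.den : ℤ) := by
  have hA' : ((ℓ : ℕ) : AlgebraicClosure ℚ) ∈ A.nonunits := hA
  intro hdvd
  set m : ℤ := q.num with hm
  set n : ℕ := q.den with hn
  have hn0 : (n : AlgebraicClosure ℚ) ≠ 0 := by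
    have : n ≠ 0 := q.den_nz
    exact_mod_cast this
  have hqdef : algebraMap ℚ (AlgebraicClosure ℚ) q =
      (m : AlgebraicClosure ℚ) / (n : AlgebraicClosure ℚ) := by
    rw [eq_ratCast, Rat.cast_def]
  have hmq : (m : AlgebraicClosure ℚ) =
      algebraMap ℚ (AlgebraicClosure ℚ) q * (n : AlgebraicClosure ℚ) := by
    rw [hqdef]; field_simp
  have hℓm : ¬ (ℓ : ℤ) ∣ m := by
    intro hdvd'
    have h1 : ℓ ∣ m.natAbs := Int.natCast_dvd.mp hdvd'
    have h2 : ℓ ∣ n := Int.natCast_dvd_natCast.mp hdvd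
    have h3 : Nat.Coprime m.natAbs n := q.reduced
    have := Nat.dvd_gcd h1 h2
    rw [h3] at this
    exact hℓ.one_lt.ne' (Nat.dvd_one.mp this)
  have hnmem : ((n : ℤ) : AlgebraicClosure ℚ) ∈ A.nonunits := by
    obtain ⟨w, hw⟩ := hdvd
    rw [hw]
    push_cast
    exact lemmaX_nonunits_mul A hA' (intCast_mem A w)
  have hmmem : (m : AlgebraicClosure ℚ) ∈ A.nonunits := by
    rw [hmq, mul_comm]
    exact lemmaX_nonunits_mul A (by simpa using hnmem) hq
  exact intCast_not_mem_nonunits hℓ A hA' m hℓm hmmem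

/-- Bridging: an element of `ℚ̄` all of whose conjugates lie in a valuation subring over `ℓ`
becomes integral over `ℤ` after multiplication by an integer prime to `ℓ`. -/
theorem exists_int_mul_isIntegral {ℓ : ℕ} (hℓ : ℓ.Prime)
    (A : ValuationSubring (AlgebraicClosure ℚ)) (hA : A.LiesOverPrime ℓ)
    (b : AlgebraicClosure ℚ)
    (hb : ∀ g : AlgebraicClosure ℚ ≃ₐ[ℚ] AlgebraicClosure ℚ, g b ∈ A) :
    ∃ n : ℤ, ¬ (ℓ : ℤ) ∣ n ∧ IsIntegral ℤ ((n : AlgebraicClosure ℚ) * b) := by
  classical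
  haveI := isAlgClosure_rat_qbar
  letI : TopologicalSpace (galStableSubring A) := ⊥
  haveI : DiscreteTopology (galStableSubring A) := ⟨rfl⟩
  haveI : ContinuousSMul (AlgebraicClosure ℚ ≃ₐ[ℚ] AlgebraicClosure ℚ) (galStableSubring A) := by
    rw [continuousSMul_iff_stabilizer_isOpen]
    intro b
    have h := stabilizer_isOpen_of_isIntegral (K := ℚ) (b : AlgebraicClosure ℚ)
    convert h using 1
    ext g
    simp only [SetLike.mem_coe, MulAction.mem_stabilizer_iff, Subtype.ext_iff]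
    rfl
  haveI : Algebra.IsInvariant (FixedPoints.subring (galStableSubring A)
      (AlgebraicClosure ℚ ≃ₐ[ℚ] AlgebraicClosure ℚ)) (galStableSubring A)
      (AlgebraicClosure ℚ ≃ₐ[ℚ] AlgebraicClosure ℚ) := ⟨fun b hb => ⟨⟨b, hb⟩, rfl⟩⟩
  have hint : Algebra.IsIntegral (FixedPoints.subring (galStableSubring A)
      (AlgebraicClosure ℚ ≃ₐ[ℚ] AlgebraicClosure ℚ)) (galStableSubring A) :=
    Algebra.IsInvariant.isIntegral_of_profinite
      (G := AlgebraicClosure ℚ ≃ₐ[ℚ] AlgebraicClosure ℚ)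
  obtain ⟨f₀, hf₀m, hf₀⟩ := hint.isIntegral (⟨b, hb⟩ : galStableSubring A)
  -- the inclusion of the fixed ring into `ℚ̄`
  let ι : (FixedPoints.subring (galStableSubring A)
      (AlgebraicClosure ℚ ≃ₐ[ℚ] AlgebraicClosure ℚ)) →+* AlgebraicClosure ℚ :=
    (galStableSubring A).subtype.comp (Subring.subtype _)
  have hι : ∀ c, ∃ q : ℚ, algebraMap ℚ (AlgebraicClosure ℚ) q = ι c ∧ ¬ (ℓ : ℤ) ∣ (q.den : ℤ) := by
    intro c
    have hfix : ∀ g : AlgebraicClosure ℚ ≃ₐ[ℚ] AlgebraicClosure ℚ, g (ι c) = ι c := by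
      intro g
      have := c.2 g
      exact congrArg Subtype.val this
    obtain ⟨q, hq⟩ := exists_rat_of_fixed _ hfix
    refine ⟨q, hq, not_dvd_den_of_mem hℓ A hA q ?_⟩
    rw [hq]
    exact galStableSubring_le A (c : galStableSubring A).2
  choose qc hqc hqden using hι
  set f : (AlgebraicClosure ℚ)[X] := f₀.map ι with hf
  have hfm : f.Monic := hf₀m.map ι
  have hfb : f.eval b = 0 := by
    rw [hf, Polynomial.eval_map]
    have h1 := congrArg (galStableSubring A).subtype hf₀
    rw [map_zero, Polynomial.hom_eval₂] at h1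
    exact h1
  set n : ℤ := ∏ i ∈ Finset.range f.natDegree, ((qc (f₀.coeff i)).den : ℤ) with hn
  have hℓn : ¬ (ℓ : ℤ) ∣ n := by
    rw [hn, Prime.dvd_finsetProd_iff (Nat.prime_iff_prime_int.mp hℓ)]
    rintro ⟨i, -, hi⟩
    exact hqden _ hi
  refine ⟨n, hℓn, ?_⟩
  have := isIntegral_smul_of_coeff_mem (R := ℤ) f hfm b hfb n ?_
  · simpa using this
  intro i hi
  have hdvd : ((qc (f₀.coeff i)).den : ℤ) ∣ n :=
    Finset.dvd_prod_of_mem _ (Finset.mem_range.mpr hi)
  obtain ⟨w, hw⟩ := hdvd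
  refine ⟨w * (qc (f₀.coeff i)).num, ?_⟩
  rw [hf, Polynomial.coeff_map, ← hqc, hw]
  have hden0 : (((qc (f₀.coeff i)).den : ℤ) : AlgebraicClosure ℚ) ≠ 0 := by
    have : (qc (f₀.coeff i)).den ≠ 0 := (qc (f₀.coeff i)).den_nz
    exact_mod_cast this
  rw [eq_ratCast (algebraMap ℚ (AlgebraicClosure ℚ)), Rat.cast_def]
  simp only [eq_intCast, Int.cast_mul, Int.cast_natCast]
  field_simp

theorem mem_of_isIntegral_int (A : ValuationSubring (AlgebraicClosure ℚ))
    (x : AlgebraicClosure ℚ) (hx : IsIntegral ℤ x) : x ∈ A := by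
  have h1 : IsIntegral A x := hx.tower_top
  obtain ⟨y, hy⟩ := (IsIntegrallyClosed.isIntegral_iff (R := A) (K := AlgebraicClosure ℚ)).mp h1
  rw [← hy]
  exact y.2

/-- Finite level: a finite Galois extension `L ≠ ℚ` inside `ℚ̄` has a prime `ℓ` such that for
every place `A` of `ℚ̄` over `ℓ` some nontrivial element of `Gal(L/ℚ)` acts trivially modulo
`𝔪_A` on the `ℓ`-integral elements of `L`. -/
theorem exists_prime_forall_exists_inert (L : IntermediateField ℚ (AlgebraicClosure ℚ))
    [FiniteDimensional ℚ L] [IsGalois ℚ L] (hL : L ≠ ⊥) :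
    ∃ ℓ : ℕ, ℓ.Prime ∧ ∀ A : ValuationSubring (AlgebraicClosure ℚ), A.LiesOverPrime ℓ →
      ∃ s : L ≃ₐ[ℚ] L, s ≠ 1 ∧ ∀ x : L,
        (∀ g : AlgebraicClosure ℚ ≃ₐ[ℚ] AlgebraicClosure ℚ, g (x : AlgebraicClosure ℚ) ∈ A) →
          ((s x : L) : AlgebraicClosure ℚ) - (x : AlgebraicClosure ℚ) ∈ A.nonunits := by
  classical
  haveI : NumberField L := { to_charZero := inferInstance, to_finiteDimensional := inferInstance }
  have hrank : 1 < Module.finrank ℚ L := by
    have h0 : 0 < Module.finrank ℚ L := Module.finrank_pos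
    have h1 : Module.finrank ℚ L ≠ 1 := fun h => hL (IntermediateField.finrank_eq_one_iff.mp h)
    omega
  obtain ⟨ℓ, hℓ, hram⟩ :=
    NumberField.exists_not_isUnramifiedAt_int_of_isGalois (K := L) (𝒪 := 𝓞 L) hrank
  refine ⟨ℓ, hℓ, fun A hA => ?_⟩
  have hA' : ((ℓ : ℕ) : AlgebraicClosure ℚ) ∈ A.nonunits := hA
  -- the ring hom `𝓞 L → A`
  let ψ : 𝓞 L →+* AlgebraicClosure ℚ :=
    (algebraMap L (AlgebraicClosure ℚ)).comp (algebraMap (𝓞 L) L)
  have hψ : ∀ x : 𝓞 L, ψ x ∈ A := fun x =>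
    mem_of_isIntegral_int A _ ((NumberField.RingOfIntegers.isIntegral x).map
      ((algebraMap L (AlgebraicClosure ℚ)).comp (algebraMap (𝓞 L) L)).toIntAlgHom)
  let φ : 𝓞 L →+* A := ψ.codRestrict A hψ
  let P : Ideal (𝓞 L) := (IsLocalRing.maximalIdeal A).comap φ
  have hPmem : ∀ y : 𝓞 L, y ∈ P ↔ ψ y ∈ A.nonunits := by
    intro y
    rw [Ideal.mem_comap, ← ValuationSubring.coe_mem_nonunits_iff]
    rfl
  haveI : P.IsPrime := Ideal.comap_isPrime _ _
  have hℓP : ((ℓ : ℕ) : 𝓞 L) ∈ P := by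
    rw [hPmem]
    simpa using hA'
  have hnr : ¬ Algebra.IsUnramifiedAt ℤ P := hram P inferInstance (by simpa using hℓP)
  have := IsGaloisGroup.of_isFractionRing (L ≃ₐ[ℚ] L) ℤ (𝓞 L) ℚ L
  have he : P.ramificationIdx ℤ ≠ 1 := by
    rwa [Ne, Ideal.ramificationIdx_eq_one_iff]
  have hcard : Nat.card (P.inertia (L ≃ₐ[ℚ] L)) ≠ 1 := by
    rw [Ideal.card_inertia_eq_ramificationIdxIn (P.under ℤ) P,
      Ideal.ramificationIdxIn_eq_ramificationIdx (P.under ℤ) P (L ≃ₐ[ℚ] L)]
    exact he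
  obtain ⟨s, hs, hs1⟩ : ∃ s ∈ P.inertia (L ≃ₐ[ℚ] L), s ≠ 1 := by
    by_contra hcon
    push Not at hcon
    apply hcard
    rw [Nat.card_eq_one_iff_unique]
    refine ⟨⟨fun a b => ?_⟩, ⟨1⟩⟩
    ext1
    rw [hcon a.1 a.2, hcon b.1 b.2]
  refine ⟨s, hs1, fun x hx => ?_⟩
  obtain ⟨n, hn, hint⟩ := exists_int_mul_isIntegral hℓ A hA (x : AlgebraicClosure ℚ) hx
  have hintL : IsIntegral ℤ ((n : L) * x) := by
    have : algebraMap L (AlgebraicClosure ℚ) ((n : L) * x) = (n : AlgebraicClosure ℚ) * x := by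
      simp
    rw [← this] at hint
    exact (isIntegral_algebraMap_iff (algebraMap L (AlgebraicClosure ℚ)).injective).mp hint
  let y : 𝓞 L := ⟨(n : L) * x, hintL⟩
  have hy : s • y - y ∈ P := hs y
  rw [hPmem] at hy
  have hv : A.valuation ((n : ℤ) : AlgebraicClosure ℚ) = 1 :=
    frobGlue_valuation_eq_one A (intCast_mem A n) (intCast_not_mem_nonunits hℓ A hA' n hn)
  have e1 : ψ (s • y - y) = (n : AlgebraicClosure ℚ) *
      (((s x : L) : AlgebraicClosure ℚ) - (x : AlgebraicClosure ℚ)) := by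
    have e2 : algebraMap (𝓞 L) L (s • y) = s ((n : L) * x) := by
      rw [algebraMap.smul']
      rfl
    have e3 : algebraMap (𝓞 L) L y = (n : L) * x := rfl
    simp only [ψ, map_sub, RingHom.comp_apply, e2, e3, map_mul, map_intCast]
    simp only [IntermediateField.algebraMap_apply]
    ring
  rw [e1, ValuationSubring.mem_nonunits_iff, map_mul, hv, one_mul] at hy
  exact (ValuationSubring.mem_nonunits_iff A).mpr hy

set_option synthInstance.maxHeartbeats 200000 in
set_option maxHeartbeats 1000000 in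
/-- Lifting of inertia: an automorphism `s` of a finite Galois `L ⊆ ℚ̄` acting trivially modulo
`𝔪_A` on the `ℓ`-integral elements of `L` is the restriction of an element of the inertia
group of `A`. -/
theorem exists_inertia_lift {ℓ : ℕ} (hℓ : ℓ.Prime)
    (A : ValuationSubring (AlgebraicClosure ℚ)) (hA : A.LiesOverPrime ℓ)
    (L : IntermediateField ℚ (AlgebraicClosure ℚ)) [FiniteDimensional ℚ L] [IsGalois ℚ L]
    (s : L ≃ₐ[ℚ] L)
    (hs : ∀ x : L,
      (∀ g : AlgebraicClosure ℚ ≃ₐ[ℚ] AlgebraicClosure ℚ, g (x : AlgebraicClosure ℚ) ∈ A) →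
        ((s x : L) : AlgebraicClosure ℚ) - (x : AlgebraicClosure ℚ) ∈ A.nonunits) :
    ∃ σ ∈ A.inertiaSubgroupIn ℚ, ∀ x : L, σ (x : AlgebraicClosure ℚ) = ((s x : L) : AlgebraicClosure ℚ) := by
  classical
  haveI := isAlgClosure_rat_qbar
  -- Step 1: lift `s` to `τ`
  obtain ⟨τ, hτ⟩ := AlgEquiv.restrictNormalHom_surjective (F := ℚ) (K₁ := L) (AlgebraicClosure ℚ) s
  have hτx : ∀ x : L, τ (x : AlgebraicClosure ℚ) = ((s x : L) : AlgebraicClosure ℚ) := by
    intro x
    rw [← hτ]
    exact (AlgEquiv.restrictNormal_commutes τ L x).symm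
  have hτinv : ∀ x : L, τ⁻¹ (x : AlgebraicClosure ℚ) = ((s⁻¹ x : L) : AlgebraicClosure ℚ) := by
    intro x
    have := hτx (s⁻¹ x)
    have h2 : s (s⁻¹ x) = x := by simp
    rw [h2] at this
    rw [← this]
    simp
  -- set-up of the profinite action of `H = Gal(ℚ̄/L)` on `B`
  letI : TopologicalSpace (galStableSubring A) := ⊥
  haveI : DiscreteTopology (galStableSubring A) := ⟨rfl⟩
  haveI : ContinuousSMul (AlgebraicClosure ℚ ≃ₐ[ℚ] AlgebraicClosure ℚ) (galStableSubring A) := by
    rw [continuousSMul_iff_stabilizer_isOpen]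
    intro b
    have h := stabilizer_isOpen_of_isIntegral (K := ℚ) (b : AlgebraicClosure ℚ)
    convert h using 1
    ext g
    simp only [SetLike.mem_coe, MulAction.mem_stabilizer_iff, Subtype.ext_iff]
    rfl
  haveI : CompactSpace L.fixingSubgroup :=
    isCompact_iff_compactSpace.mp (L.fixingSubgroup_isClosed.isCompact)
  haveI : ContinuousSMul L.fixingSubgroup (galStableSubring A) :=
    ⟨(continuous_smul (M := AlgebraicClosure ℚ ≃ₐ[ℚ] AlgebraicClosure ℚ)
      (X := galStableSubring A)).comp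
      ((continuous_subtype_val.comp continuous_fst).prodMk continuous_snd)⟩
  haveI : SMulCommClass L.fixingSubgroup
      (FixedPoints.subring (galStableSubring A) L.fixingSubgroup) (galStableSubring A) :=
    inferInstance
  haveI : Algebra.IsInvariant (FixedPoints.subring (galStableSubring A) L.fixingSubgroup)
      (galStableSubring A) L.fixingSubgroup := ⟨fun b hb => ⟨⟨b, hb⟩, rfl⟩⟩
  -- the prime `Q`
  let incl : galStableSubring A →+* A := Subring.inclusion (galStableSubring_le A)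
  let Q : Ideal (galStableSubring A) := (IsLocalRing.maximalIdeal A).comap incl
  have hQmem : ∀ b : galStableSubring A, b ∈ Q ↔ (b : AlgebraicClosure ℚ) ∈ A.nonunits := by
    intro b
    rw [Ideal.mem_comap, ← ValuationSubring.coe_mem_nonunits_iff]
    rfl
  haveI : Q.IsPrime := Ideal.comap_isPrime _ _
  -- elements of `B` fixed by `H` lie in `L`
  have hfixL : ∀ b : FixedPoints.subring (galStableSubring A) L.fixingSubgroup,
      ((b : galStableSubring A) : AlgebraicClosure ℚ) ∈ L := by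
    intro b
    have h1 : ((b : galStableSubring A) : AlgebraicClosure ℚ) ∈
        IntermediateField.fixedField L.fixingSubgroup := by
      rw [IntermediateField.mem_fixedField_iff]
      intro g hg
      have := b.2 ⟨g, hg⟩
      exact congrArg Subtype.val this
    rwa [InfiniteGalois.fixedField_fixingSubgroup L] at h1
  -- elements of `H` fix `L`
  have hHfix : ∀ (h : L.fixingSubgroup) (x : AlgebraicClosure ℚ), x ∈ L →
      (h : AlgebraicClosure ℚ ≃ₐ[ℚ] AlgebraicClosure ℚ) x = x := by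
    intro h x hx
    exact (IntermediateField.mem_fixingSubgroup_iff L h.1).mp h.2 x hx
  -- `τ⁻¹` is inert on the fixed ring
  have hinert_inv : ∀ b : FixedPoints.subring (galStableSubring A) L.fixingSubgroup,
      τ⁻¹ • (b : galStableSubring A) - (b : galStableSubring A) ∈ Q := by
    intro b
    rw [hQmem]
    have hconj : ∀ g : AlgebraicClosure ℚ ≃ₐ[ℚ] AlgebraicClosure ℚ,
        g ((s⁻¹ ⟨_, hfixL b⟩ : L) : AlgebraicClosure ℚ) ∈ A := by
      intro g
      rw [← hτinv]
      exact (b : galStableSubring A).2 (g * τ⁻¹)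
    have h1 := hs (s⁻¹ ⟨_, hfixL b⟩) hconj
    have h2 : s (s⁻¹ ⟨_, hfixL b⟩) = ⟨_, hfixL b⟩ := by simp
    rw [h2, ← hτinv] at h1
    have h3 : ((τ⁻¹ • (b : galStableSubring A) - (b : galStableSubring A) : galStableSubring A) :
        AlgebraicClosure ℚ) = -(((b : galStableSubring A) : AlgebraicClosure ℚ) -
          τ⁻¹ ((b : galStableSubring A) : AlgebraicClosure ℚ)) := by
      rw [neg_sub]; rfl
    rw [h3]
    exact neg_mem h1
  -- Step 2: move `τ • Q` back to `Q` by an element of `H`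
  have hunder : (τ • Q).under (FixedPoints.subring (galStableSubring A) L.fixingSubgroup) =
      Q.under (FixedPoints.subring (galStableSubring A) L.fixingSubgroup) := by
    ext b
    rw [Ideal.under_def, Ideal.under_def, Ideal.mem_comap, Ideal.mem_comap]
    change (b : galStableSubring A) ∈ τ • Q ↔ (b : galStableSubring A) ∈ Q
    rw [Ideal.mem_pointwise_smul_iff_inv_smul_mem]
    have := hinert_inv b
    constructor
    · intro h
      have h2 := Q.sub_mem h this
      simpa using h2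
    · intro h
      have h2 := Q.add_mem this h
      simpa using h2
  obtain ⟨h, hh⟩ := Algebra.IsInvariant.exists_smul_of_under_eq_of_profinite
    (A := FixedPoints.subring (galStableSubring A) L.fixingSubgroup)
    (G := L.fixingSubgroup) (τ • Q) Q hunder
  -- Step 3: `τ' = h τ` stabilises `Q`
  set τ' : AlgebraicClosure ℚ ≃ₐ[ℚ] AlgebraicClosure ℚ :=
    (h : AlgebraicClosure ℚ ≃ₐ[ℚ] AlgebraicClosure ℚ) * τ with hτ'
  have hτ'Q : τ' • Q = Q := by
    rw [hτ', mul_smul]
    exact hh.symm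
  have hτ'L : ∀ x : L, τ' (x : AlgebraicClosure ℚ) = ((s x : L) : AlgebraicClosure ℚ) := by
    intro x
    rw [hτ', AlgEquiv.mul_apply, hτx]
    exact hHfix h _ (s x).2
  have hinert : ∀ b : FixedPoints.subring (galStableSubring A) L.fixingSubgroup,
      τ' • (b : galStableSubring A) - (b : galStableSubring A) ∈ Q := by
    intro b
    rw [hQmem]
    have h1 := hs ⟨_, hfixL b⟩ (fun g' => (b : galStableSubring A).2 g')
    rw [← hτ'L] at h1
    exact h1
  let P' : Ideal (FixedPoints.subring (galStableSubring A) L.fixingSubgroup) := Q.under _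
  haveI : Q.LiesOver P' := ⟨rfl⟩
  let e : galStableSubring A ≃+* galStableSubring A :=
    MulSemiringAction.toRingEquiv (AlgebraicClosure ℚ ≃ₐ[ℚ] AlgebraicClosure ℚ)
      (galStableSubring A) τ'
  have he : Q = Q.map (e : galStableSubring A →+* galStableSubring A) := by
    conv_lhs => rw [← hτ'Q]
    rfl
  let φ : (galStableSubring A ⧸ Q) ≃ₐ[(FixedPoints.subring (galStableSubring A)
      L.fixingSubgroup) ⧸ P'] (galStableSubring A ⧸ Q) :=
    { Ideal.quotientEquiv Q Q e he with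
      commutes' := by
        intro r
        obtain ⟨b, rfl⟩ := Ideal.Quotient.mk_surjective r
        change Ideal.Quotient.mk Q (τ' • (b : galStableSubring A)) =
          Ideal.Quotient.mk Q (b : galStableSubring A)
        rw [Ideal.Quotient.eq]
        exact hinert b }
  obtain ⟨h₂, hh₂⟩ := Ideal.Quotient.stabilizerHom_surjective_of_profinite
    (G := L.fixingSubgroup) P' Q φ
  have hcmp : ∀ c : galStableSubring A,
      τ' • c - (h₂ : L.fixingSubgroup) • c ∈ Q := by
    intro c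
    have h1 := congrArg (fun f => f (Ideal.Quotient.mk Q c)) hh₂
    simp only [Ideal.Quotient.stabilizerHom_apply] at h1
    have h2 : φ (Ideal.Quotient.mk Q c) = Ideal.Quotient.mk Q (τ' • c) := rfl
    rw [h2, Ideal.Quotient.eq] at h1
    have h3 : τ' • c - (h₂ : L.fixingSubgroup) • c = -(h₂ • c - τ' • c) := by
      rw [neg_sub]; rfl
    rw [h3]
    exact Q.neg_mem h1
  -- Step 4
  refine ⟨τ' * ((h₂ : L.fixingSubgroup) : AlgebraicClosure ℚ ≃ₐ[ℚ] AlgebraicClosure ℚ)⁻¹,
    ?_, ?_⟩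
  · apply mem_inertiaSubgroupIn_of_forall hℓ A hA
    intro b hb
    have hc := hcmp ((h₂ : L.fixingSubgroup)⁻¹ • (⟨b, hb⟩ : galStableSubring A))
    rw [smul_inv_smul, hQmem] at hc
    exact hc
  · intro x
    rw [AlgEquiv.mul_apply]
    have h1 : ((h₂ : L.fixingSubgroup) : AlgebraicClosure ℚ ≃ₐ[ℚ] AlgebraicClosure ℚ)⁻¹
        (x : AlgebraicClosure ℚ) = x := hHfix ((h₂ : L.fixingSubgroup)⁻¹) _ x.2
    rw [h1, hτ'L]

/-- **Minkowski glue**, subgroup form with an open-ness witness given by a finite-dimensional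
intermediate field. -/
theorem eq_top_of_inertia_le (K : Subgroup (AlgebraicClosure ℚ ≃ₐ[ℚ] AlgebraicClosure ℚ))
    (hKn : K.Normal)
    (F : IntermediateField ℚ (AlgebraicClosure ℚ)) [FiniteDimensional ℚ F]
    (hF : F.fixingSubgroup ≤ K)
    (hI : ∀ q : ℕ, q.Prime → ∃ A : ValuationSubring (AlgebraicClosure ℚ), A.LiesOverPrime q ∧
      A.inertiaSubgroupIn ℚ ≤ K) :
    K = ⊤ := by
  classical
  haveI := isAlgClosure_rat_qbar
  have hKopen : IsOpen (K : Set (AlgebraicClosure ℚ ≃ₐ[ℚ] AlgebraicClosure ℚ)) :=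
    Subgroup.isOpen_mono hF F.fixingSubgroup_isOpen
  have hKclosed : IsClosed (K : Set (AlgebraicClosure ℚ ≃ₐ[ℚ] AlgebraicClosure ℚ)) :=
    Subgroup.isClosed_of_isOpen K hKopen
  let Kc : ClosedSubgroup (AlgebraicClosure ℚ ≃ₐ[ℚ] AlgebraicClosure ℚ) := ⟨K, hKclosed⟩
  set L : IntermediateField ℚ (AlgebraicClosure ℚ) := IntermediateField.fixedField K with hLdef
  have hLK : L.fixingSubgroup = K := InfiniteGalois.fixingSubgroup_fixedField Kc
  have hLF : L ≤ F := by
    have h1 : IntermediateField.fixedField K ≤ IntermediateField.fixedField F.fixingSubgroup :=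
      IntermediateField.fixedField_antitone hF
    rwa [InfiniteGalois.fixedField_fixingSubgroup F] at h1
  haveI : FiniteDimensional ℚ L :=
    Module.Finite.of_injective (IntermediateField.inclusion hLF).toLinearMap
      (IntermediateField.inclusion hLF).injective
  haveI : IsGalois ℚ L := by
    have h1 : L.fixingSubgroup.Normal := hLK ▸ hKn
    exact (InfiniteGalois.normal_iff_isGalois L).mp h1
  by_contra hK
  have hL : L ≠ ⊥ := by
    intro hbot
    apply hK
    rw [← hLK, hbot]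
    exact IntermediateField.fixingSubgroup_bot
  obtain ⟨ℓ, hℓ, hex⟩ := exists_prime_forall_exists_inert L hL
  obtain ⟨A, hA, hAK⟩ := hI ℓ hℓ
  obtain ⟨s, hs1, hs⟩ := hex A hA
  obtain ⟨σ, hσI, hσs⟩ := exists_inertia_lift hℓ A hA L s hs
  have hσK : σ ∈ L.fixingSubgroup := by
    rw [hLK]; exact hAK hσI
  apply hs1
  ext x
  have h1 := (IntermediateField.mem_fixingSubgroup_iff L σ).mp hσK x x.2
  rw [hσs] at h1
  simpa using h1

/-- P7 in the interface form (`StmtMinkowski` of `Fermat/Agent/S13/Interface.lean`). -/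
theorem minkowski_glue (K : Subgroup (AlgebraicClosure ℚ ≃ₐ[ℚ] AlgebraicClosure ℚ))
    (hKn : K.Normal)
    (hS : ∃ S : Finset (AlgebraicClosure ℚ),
      ∀ σ : AlgebraicClosure ℚ ≃ₐ[ℚ] AlgebraicClosure ℚ, (∀ s ∈ S, σ s = s) → σ ∈ K)
    (hI : ∀ q : ℕ, q.Prime → ∃ A : ValuationSubring (AlgebraicClosure ℚ), A.LiesOverPrime q ∧
      A.inertiaSubgroupIn ℚ ≤ K) :
    K = ⊤ := by
  obtain ⟨S, hS⟩ := hS
  haveI := isAlgClosure_rat_qbar
  haveI : FiniteDimensional ℚ (IntermediateField.adjoin ℚ (S : Set (AlgebraicClosure ℚ))) :=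
    IntermediateField.finiteDimensional_adjoin (fun x _ =>
      (Algebra.IsIntegral.isIntegral (R := ℚ) x))
  refine eq_top_of_inertia_le K hKn (IntermediateField.adjoin ℚ (S : Set (AlgebraicClosure ℚ)))
    ?_ hI
  intro σ hσ
  apply hS
  intro s hs
  exact (IntermediateField.mem_fixingSubgroup_iff _ σ).mp hσ s
    (IntermediateField.subset_adjoin ℚ _ (Finset.mem_coe.mpr hs))

end Fermat.Agent.S13.Minkowski
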