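/-
S13 / P1, Step A (helper6): the symmetric biquadratic of the `x`-only group law, and the
`x`-coordinate function on points, in the form consumed by the abstract `x`-sequence argument
(`DivXC.lean`).  Pure algebra on top of `Fermat/Agent/S05/Coords.lean`.
-/
import Fermat.Agent.S05.Coords

set_option autoImplicit false
set_option linter.unusedSectionVars false

namespace Fermat.Agent.S13.DivX

open WeierstrassCurve WeierstrassCurve.Affine Fermat.Agent.S05

variable {K : Type*} [Field K] (W : WeierstrassCurve K)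

/-- Numerator of `x(P₁+P₂) + x(P₁-P₂)`. -/
def sumNum (x₁ x₂ : K) : K :=
  2 * x₁ * x₂ * (x₁ + x₂) + W.b₂ * x₁ * x₂ + W.b₄ * (x₁ + x₂) + W.b₆

/-- Numerator of `x(P₁+P₂) * x(P₁-P₂)`. -/
def prodNum (x₁ x₂ : K) : K :=
  x₁ ^ 2 * x₂ ^ 2 - W.b₄ * x₁ * x₂ - W.b₆ * (x₁ + x₂) - W.b₈

/-- The symmetric biquadratic form `B(z, x₁, x₂)`; it vanishes iff `±P ± P₁ ± P₂ = 0`. -/
def biq (z x₁ x₂ : K) : K :=
  z ^ 2 * (x₁ - x₂) ^ 2 - z * sumNum W x₁ x₂ + prodNum W x₁ x₂

lemma biq_comm₁₂ (z x₁ x₂ : K) : biq W z x₁ x₂ = biq W x₁ z x₂ := by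
  simp only [biq, sumNum, prodNum]; ring

lemma biq_comm₂₃ (z x₁ x₂ : K) : biq W z x₁ x₂ = biq W z x₂ x₁ := by
  simp only [biq, sumNum, prodNum]; ring

lemma biq_comm₁₃ (z x₁ x₂ : K) : biq W z x₁ x₂ = biq W x₂ x₁ z := by
  simp only [biq, sumNum, prodNum]; ring

lemma biq_self (z x : K) : biq W z x x = dupNum W x - z * cub W x := by
  simp only [biq, sumNum, prodNum, dupNum, cub]; ring

lemma cub_mul_sub_dupNum (x : K) :
    x * cub W x - dupNum W x = 3 * x ^ 4 + W.b₂ * x ^ 3 + 3 * W.b₄ * x ^ 2 + 3 * W.b₆ * x + W.b₈ := by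
  simp only [dupNum, cub]; ring

section Points

variable {W} [DecidableEq K]

/-- The `x`-coordinate of a point (junk value `0` at infinity). -/
def xOf : W.toAffine.Point → K
  | .zero => 0
  | .some x _ _ => x

/-- The `η`-coordinate `2y + a₁x + a₃` of a point (junk value `0` at infinity). -/
def etaOf : W.toAffine.Point → K
  | .zero => 0
  | .some x y _ => eta W x y

@[simp] lemma xOf_some {x y : K} (h : W.toAffine.Nonsingular x y) : xOf (Point.some x y h) = x := rfl

@[simp] lemma etaOf_some {x y : K} (h : W.toAffine.Nonsingular x y) :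
    etaOf (Point.some x y h) = eta W x y := rfl

lemma xOf_neg (P : W.toAffine.Point) : xOf (-P) = xOf P := by
  cases P with
  | zero => rfl
  | some x y h => rfl

lemma etaOf_neg (P : W.toAffine.Point) : etaOf (-P) = -etaOf P := by
  cases P with
  | zero => simp [etaOf, show (-(Point.zero : W.toAffine.Point)) = Point.zero from rfl]
  | some x y h =>
    rw [Point.neg_some]
    simp only [etaOf_some, eta_negY]

lemma etaOf_sq {P : W.toAffine.Point} (hP : P ≠ 0) : etaOf P ^ 2 = cub W (xOf P) := by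
  cases P with
  | zero => exact absurd rfl hP
  | some x y h => exact eta_sq W h.1

/-- Two affine points with the same `x`-coordinate are equal or opposite. -/
lemma eq_or_eq_neg_of_xOf_eq {P Q : W.toAffine.Point} (hP : P ≠ 0) (hQ : Q ≠ 0)
    (h : xOf P = xOf Q) : P = Q ∨ P = -Q := by
  cases P with
  | zero => exact absurd rfl hP
  | some x₁ y₁ h₁ =>
    cases Q with
    | zero => exact absurd rfl hQ
    | some x₂ y₂ h₂ =>
      simp only [xOf_some] at h
      subst h
      rcases Affine.Y_eq_of_X_eq h₁.1 h₂.1 rfl with hy | hy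
      · left; subst hy; rfl
      · right
        rw [Point.neg_some]
        subst hy
        rfl

/-- `2 • P = 0` iff `η(P) = 0`, for an affine point. -/
lemma two_nsmul_eq_zero_iff {P : W.toAffine.Point} (hP : P ≠ 0) :
    2 • P = 0 ↔ etaOf P = 0 := by
  cases P with
  | zero => exact absurd rfl hP
  | some x y h =>
    rw [two_nsmul, etaOf_some]
    constructor
    · intro h0
      by_contra hη
      obtain ⟨x₃, y₃, h₃, hadd, -⟩ := add_self_of_eta_ne h hη
      rw [hadd] at h0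
      exact Point.some_ne_zero h₃ h0
    · intro hη
      exact add_self_of_eta_eq h hη

/-- Duplication formula in terms of `xOf`. -/
lemma xOf_two_nsmul {P : W.toAffine.Point} (hP : P ≠ 0) (h2P : 2 • P ≠ 0) :
    xOf (2 • P) * cub W (xOf P) = dupNum W (xOf P) := by
  have hη : etaOf P ≠ 0 := fun h => h2P ((two_nsmul_eq_zero_iff hP).mpr h)
  cases P with
  | zero => exact absurd rfl hP
  | some x y h =>
    rw [etaOf_some] at hη
    obtain ⟨x₃, y₃, h₃, hadd, hx⟩ := add_self_of_eta_ne h hη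
    rw [two_nsmul, hadd, xOf_some, xOf_some, ← eta_sq W h.1, hx]

lemma cub_xOf_ne_zero {P : W.toAffine.Point} (hP : P ≠ 0) (h2P : 2 • P ≠ 0) :
    cub W (xOf P) ≠ 0 := by
  rw [← etaOf_sq hP]
  exact pow_ne_zero 2 fun h => h2P ((two_nsmul_eq_zero_iff hP).mpr h)

/-- Sum and product of `x(P+Q)` and `x(P-Q)`; both points are affine. -/
theorem xOf_add_sub (h2 : (2 : K) ≠ 0) {P Q : W.toAffine.Point} (hP : P ≠ 0) (hQ : Q ≠ 0)
    (hx : xOf P ≠ xOf Q) :
    P + Q ≠ 0 ∧ P - Q ≠ 0 ∧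
    (xOf (P + Q) + xOf (P - Q)) * (xOf P - xOf Q) ^ 2 = sumNum W (xOf P) (xOf Q) ∧
    xOf (P + Q) * xOf (P - Q) * (xOf P - xOf Q) ^ 2 = prodNum W (xOf P) (xOf Q) := by
  cases P with
  | zero => exact absurd rfl hP
  | some x₁ y₁ h₁ =>
    cases Q with
    | zero => exact absurd rfl hQ
    | some x₂ y₂ h₂ =>
      simp only [xOf_some] at hx ⊢
      obtain ⟨xs, ys, hs, xd, yd, hd, hadd, hsub, hS, hP'⟩ := add_sub_X h2 h₁ h₂ hx
      rw [hadd, hsub]
      exact ⟨Point.some_ne_zero hs, Point.some_ne_zero hd, hS, hP'⟩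

/-- The biquadratic identity `(z - x(P+Q)) (z - x(P-Q)) (x(P) - x(Q))² = B(z, x(P), x(Q))`. -/
theorem biq_eq (h2 : (2 : K) ≠ 0) {P Q : W.toAffine.Point} (hP : P ≠ 0) (hQ : Q ≠ 0)
    (hx : xOf P ≠ xOf Q) (z : K) :
    (z - xOf (P + Q)) * (z - xOf (P - Q)) * (xOf P - xOf Q) ^ 2 = biq W z (xOf P) (xOf Q) := by
  obtain ⟨-, -, hS, hP'⟩ := xOf_add_sub h2 hP hQ hx
  simp only [biq]
  linear_combination (-z) * hS + hP'

end Points

end Fermat.Agent.S13.DivX
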