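import Mathlib

/-!
# S13 / P1c: descent for elliptic sequences ("zero ⇒ torsion" glue)

Pure sequence lemmas: if `w : ℤ → K` satisfies the two-index elliptic relation, `r ≥ 2` is its
first zero and `w (r + 1) ≠ 0`, then every zero of `w` is a multiple of `r`.
-/

set_option autoImplicit false

namespace Fermat.Agent.S13

section Seq

variable {K : Type*} [Field K]

/-- The two-index elliptic relation for a sequence `w : ℤ → K`. -/
def EllRel (w : ℤ → K) : Prop :=
  ∀ m n : ℤ, w (m + n) * w (m - n) =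
    w (m + 1) * w (m - 1) * w n ^ 2 - w (n + 1) * w (n - 1) * w m ^ 2

/-- If `r ≥ 4` is the first zero of an elliptic sequence with `w 1 = 1`, then `w (r + 1) ≠ 0`. -/
theorem descent_succ_ne_zero {w : ℤ → K} (hrel : EllRel w) (h1 : w 1 = 1) (r : ℕ) (hr : 4 ≤ r)
    (hr0 : w r = 0) (hmin : ∀ k : ℕ, 0 < k → k < r → w k ≠ 0) : w (r + 1) ≠ 0 := by
  have h := hrel ((r : ℤ) - 1) 2
  have e1 : ((r : ℤ) - 1 + 2) = r + 1 := by ring
  have e2 : ((r : ℤ) - 1 - 2) = ((r - 3 : ℕ) : ℤ) := by
    have : 3 ≤ r := by omega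
    push_cast [this]; ring
  have e3 : ((r : ℤ) - 1 + 1) = r := by ring
  have e4 : ((r : ℤ) - 1 - 1) = ((r - 2 : ℕ) : ℤ) := by
    have : 2 ≤ r := by omega
    push_cast [this]; ring
  have e5 : ((2 : ℤ) + 1) = ((3 : ℕ) : ℤ) := by norm_num
  have e6 : ((2 : ℤ) - 1) = 1 := by norm_num
  have e7 : ((r : ℤ) - 1) = ((r - 1 : ℕ) : ℤ) := by
    have : 1 ≤ r := by omega
    push_cast [this]; ring
  rw [e1, e2, e3, e4, e5, e6, hr0, h1, e7] at h
  have h3 : w ((3 : ℕ) : ℤ) ≠ 0 := hmin 3 (by norm_num) (by omega)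
  have hr1 : w ((r - 1 : ℕ) : ℤ) ≠ 0 := hmin (r - 1) (by omega) (by omega)
  intro h0
  rw [h0] at h
  have : w ((3 : ℕ) : ℤ) * w ((r - 1 : ℕ) : ℤ) ^ 2 = 0 := by linear_combination h
  rcases mul_eq_zero.1 this with h' | h'
  · exact h3 h'
  · exact hr1 ((pow_eq_zero_iff (two_ne_zero)).1 h')

/-- Descent: the zeros of an elliptic sequence are multiples of its first zero `r`, provided
`w (r + 1) ≠ 0`. -/
theorem descent_dvd {w : ℤ → K} (hrel : EllRel w) (r : ℕ) (hr : 2 ≤ r)
    (hr0 : w r = 0) (hmin : ∀ k : ℕ, 0 < k → k < r → w k ≠ 0) (hr1 : w (r + 1) ≠ 0) :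
    ∀ n : ℕ, w n = 0 → r ∣ n := by
  have hrm : w ((r - 1 : ℕ) : ℤ) ≠ 0 := hmin (r - 1) (by omega) (by omega)
  have ermi : ((r - 1 : ℕ) : ℤ) = (r : ℤ) - 1 := by
    have : 1 ≤ r := by omega
    push_cast [this]; ring
  intro n
  induction n using Nat.strong_induction_on with
  | _ n ih =>
    intro hn
    rcases Nat.lt_or_ge n r with hlt | hge
    · rcases Nat.eq_zero_or_pos n with h0 | hpos
      · subst h0; exact dvd_zero r
      · exact absurd hn (hmin n hpos hlt)
    · obtain ⟨j, rfl⟩ : ∃ j, n = r + j := ⟨n - r, by omega⟩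
      rcases Nat.eq_zero_or_pos j with h0 | hjpos
      · subst h0; simp
      rcases lt_trichotomy j r with hjr | hjr | hjr
      · -- `E(r, j)`
        exfalso
        have h := hrel (r : ℤ) (j : ℤ)
        have hnz : w ((r : ℤ) + j) = 0 := by
          have : ((r + j : ℕ) : ℤ) = (r : ℤ) + j := by push_cast; ring
          rw [← this]; exact hn
        rw [hnz, hr0] at h
        have hj : w (j : ℤ) ≠ 0 := hmin j hjpos hjr
        have : w ((r : ℤ) + 1) * w ((r : ℤ) - 1) * w (j : ℤ) ^ 2 = 0 := by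
          linear_combination -h
        rw [← ermi] at this
        rcases mul_eq_zero.1 this with h' | h'
        · rcases mul_eq_zero.1 h' with h'' | h''
          · exact hr1 h''
          · exact hrm h''
        · exact hj ((pow_eq_zero_iff (two_ne_zero)).1 h')
      · subst hjr
        exact ⟨2, by ring⟩
      · -- `E(j, r)`
        have h := hrel (j : ℤ) (r : ℤ)
        have hnz : w ((j : ℤ) + r) = 0 := by
          have : ((r + j : ℕ) : ℤ) = (j : ℤ) + r := by push_cast; ring
          rw [← this]; exact hn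
        rw [hnz, hr0] at h
        have : w ((r : ℤ) + 1) * w ((r : ℤ) - 1) * w (j : ℤ) ^ 2 = 0 := by
          linear_combination h
        rw [← ermi] at this
        have hj0 : w (j : ℤ) = 0 := by
          rcases mul_eq_zero.1 this with h' | h'
          · rcases mul_eq_zero.1 h' with h'' | h''
            · exact absurd h'' hr1
            · exact absurd h'' hrm
          · exact (pow_eq_zero_iff (two_ne_zero)).1 h'
        have := ih j (by omega) hj0
        exact (Nat.dvd_add_right (dvd_refl r)).2 this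

end Seq

end Fermat.Agent.S13
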