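import Mathlib
import Fermat.Agent.S13.Descent
import Fermat.Agent.S05.Coords

/-!
# S13 / P1c: "zero ⇒ torsion" from the elliptic relation + MF/Z (glue, helper77)

`zeroTors_abstract`: for a point `P` of an abelian group and a sequence `w : ℤ → K` such that
* `w` satisfies the two-index elliptic relation (`EllRel`, from `normEDS_rel`),
* (MF) if `k • P ≠ 0` for `0 < k ≤ N` then `w k ≠ 0` for `0 < k ≤ N`,
* (Z) if `r ≥ 2` is the exact order of `P` then `w r = 0`,
* `w 2 = 0 → w 3 ≠ 0` and `w 2 ≠ 0 → w 3 = 0 → w 4 ≠ 0`,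
we get `w n = 0 → n • P = 0` for all `n ≥ 1`.

`psiAt W x y n` is the value of the `n`-th division polynomial at `(x, y)`, and
`psiAt_three_ne_zero`, `psiAt_four_ne_zero` are the two curve facts.
-/

set_option autoImplicit false

namespace Fermat.Agent.S13

open WeierstrassCurve

section Abstract

variable {K : Type*} [Field K] {G : Type*} [AddCommGroup G]

theorem zeroTors_abstract (P : G) (w : ℤ → K) (hrel : EllRel w) (h1 : w 1 = 1)
    (hMF : ∀ N : ℕ, (∀ k : ℕ, 0 < k → k ≤ N → k • P ≠ 0) → ∀ k : ℕ, 0 < k → k ≤ N → w k ≠ 0)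
    (hZ : ∀ r : ℕ, 2 ≤ r → (∀ k : ℕ, 0 < k → k < r → k • P ≠ 0) → r • P = 0 → w r = 0)
    (h23 : w 2 = 0 → w 3 ≠ 0) (h34 : w 2 ≠ 0 → w 3 = 0 → w 4 ≠ 0)
    (n : ℕ) (hn : 0 < n) (h0 : w n = 0) : n • P = 0 := by
  classical
  by_contra hnP
  -- some multiple `k • P` with `0 < k ≤ n` vanishes
  have hex : ∃ k : ℕ, 0 < k ∧ k • P = 0 := by
    by_contra hne
    exact hMF n (fun k hk _ hk0 => hne ⟨k, hk, hk0⟩) n hn le_rfl h0
  let r := Nat.find hex
  have hrpos : 0 < r := (Nat.find_spec hex).1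
  have hr0 : r • P = 0 := (Nat.find_spec hex).2
  have hrmin : ∀ k : ℕ, 0 < k → k < r → k • P ≠ 0 := fun k hk hkr hkP =>
    Nat.find_min hex hkr ⟨hk, hkP⟩
  have hP : P ≠ 0 := by
    rintro rfl
    exact hnP (smul_zero n)
  have hr2 : 2 ≤ r := by
    rcases Nat.lt_or_ge r 2 with h | h
    · have : r = 1 := by omega
      rw [this, one_smul] at hr0
      exact absurd hr0 hP
    · exact h
  have hwr : w r = 0 := hZ r hr2 hrmin hr0
  have hwmin : ∀ k : ℕ, 0 < k → k < r → w k ≠ 0 := fun k hk hkr =>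
    hMF (r - 1) (fun j hj hjr => hrmin j hj (by omega)) k hk (by omega)
  have hwsucc : w ((r : ℤ) + 1) ≠ 0 := by
    rcases Nat.lt_or_ge r 4 with h4 | h4
    · have h23' : r = 2 ∨ r = 3 := by omega
      rcases h23' with h | h
      · have e : ((r : ℤ) + 1) = 3 := by rw [h]; norm_num
        rw [e]
        apply h23
        have : w ((2 : ℕ) : ℤ) = 0 := h ▸ hwr
        simpa using this
      · have e : ((r : ℤ) + 1) = 4 := by rw [h]; norm_num
        rw [e]
        apply h34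
        · have := hwmin 2 (by norm_num) (by omega)
          simpa using this
        · have : w ((3 : ℕ) : ℤ) = 0 := h ▸ hwr
          simpa using this
    · exact descent_succ_ne_zero hrel h1 r h4 hwr hwmin
  obtain ⟨c, hc⟩ := descent_dvd hrel r hr2 hwr hwmin hwsucc n h0
  apply hnP
  rw [hc, mul_comm, mul_smul, hr0, smul_zero]

end Abstract

section Curve

variable {K : Type*} [Field K] (W : WeierstrassCurve K)

/-- The value of the `n`-th division polynomial `ψ_n` at the point `(x, y)`. -/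
noncomputable def psiAt (x y : K) (n : ℤ) : K :=
  normEDS (2 * y + W.a₁ * x + W.a₃) (W.Ψ₃.eval x) (W.preΨ₄.eval x) n

@[simp] lemma psiAt_one (x y : K) : psiAt W x y 1 = 1 := by simp [psiAt]

@[simp] lemma psiAt_two (x y : K) : psiAt W x y 2 = 2 * y + W.a₁ * x + W.a₃ := by simp [psiAt]

@[simp] lemma psiAt_three (x y : K) : psiAt W x y 3 = W.Ψ₃.eval x := by simp [psiAt]

@[simp] lemma psiAt_four (x y : K) :
    psiAt W x y 4 = W.preΨ₄.eval x * (2 * y + W.a₁ * x + W.a₃) := by simp [psiAt]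

lemma psiAt_neg (x y : K) (n : ℤ) : psiAt W x y (-n) = -psiAt W x y n := by simp [psiAt]

/-- `4 Ψ₃ = Ψ₂Sq · (12 x + b₂) - (6 x² + b₂ x + b₄)²`. -/
lemma four_mul_eval_Ψ₃ (x : K) :
    4 * W.Ψ₃.eval x = Fermat.Agent.S05.cub W x * (12 * x + W.b₂) - Fermat.Agent.S05.dcub W x ^ 2 := by
  simp only [Ψ₃, Fermat.Agent.S05.cub, Fermat.Agent.S05.dcub, Polynomial.eval_add,
    Polynomial.eval_mul, Polynomial.eval_pow, Polynomial.eval_X, Polynomial.eval_C,
    Polynomial.eval_ofNat]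
  linear_combination W.b_relation

/-- `preΨ₄ = (6 x² + b₂ x + b₄) Ψ₃ - Ψ₂Sq²`. -/
lemma eval_preΨ₄ (x : K) :
    W.preΨ₄.eval x = Fermat.Agent.S05.dcub W x * W.Ψ₃.eval x - Fermat.Agent.S05.cub W x ^ 2 := by
  simp only [Ψ₃, preΨ₄, Fermat.Agent.S05.cub, Fermat.Agent.S05.dcub, Polynomial.eval_add,
    Polynomial.eval_mul, Polynomial.eval_pow, Polynomial.eval_X, Polynomial.eval_C,
    Polynomial.eval_ofNat]
  linear_combination (x ^ 2) * W.b_relation

set_option linter.unusedSectionVars false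

variable [DecidableEq K]

/-- At a nonsingular point with `ψ₂ = 0` (and `2 ≠ 0`), `ψ₃ ≠ 0`. -/
theorem psiAt_three_ne_zero (h2 : (2 : K) ≠ 0) {x y : K} (h : W.toAffine.Nonsingular x y)
    (hη : psiAt W x y 2 = 0) : psiAt W x y 3 ≠ 0 := by
  rw [psiAt_two] at hη
  rw [psiAt_three]
  have hη' : Fermat.Agent.S05.eta W x y = 0 := hη
  have hd := Fermat.Agent.S05.dcub_ne_zero_of_eta_eq_zero W h2 h hη'
  have hc : Fermat.Agent.S05.cub W x = 0 := by
    rw [← Fermat.Agent.S05.eta_sq W h.1, hη']; ring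
  intro h3
  have := four_mul_eval_Ψ₃ W x
  rw [h3, hc] at this
  apply hd
  have : Fermat.Agent.S05.dcub W x ^ 2 = 0 := by linear_combination this
  exact (pow_eq_zero_iff two_ne_zero).1 this

/-- At a point of the curve with `ψ₂ ≠ 0` and `ψ₃ = 0`, `ψ₄ ≠ 0`. -/
theorem psiAt_four_ne_zero {x y : K} (h : W.toAffine.Equation x y)
    (hη : psiAt W x y 2 ≠ 0) (h3 : psiAt W x y 3 = 0) : psiAt W x y 4 ≠ 0 := by
  rw [psiAt_two] at hη
  rw [psiAt_three] at h3
  rw [psiAt_four]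
  have hc : Fermat.Agent.S05.cub W x = (2 * y + W.a₁ * x + W.a₃) ^ 2 := by
    rw [← Fermat.Agent.S05.eta_sq W h]; rfl
  have h4 := eval_preΨ₄ W x
  rw [h3, hc] at h4
  rw [h4]
  simp only [mul_zero, zero_sub]
  exact mul_ne_zero (neg_ne_zero.2 (pow_ne_zero _ (pow_ne_zero _ hη))) hη

end Curve

end Fermat.Agent.S13
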