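import Mathlib
import Fermat.Agent.S13.EDS
import Fermat.Agent.S13.DivXA
import Fermat.Agent.S13.ZeroTors

/-!
# S13 / P1b: the multiplication formula below the first zero (helper77)

For an affine point `P = (x, y)` of a Weierstrass curve over a field with `2 ≠ 0`, with
`w k := psiAt W x y k` (the value of the `k`-th division polynomial at `P`):

* `mf`: if `k • P ≠ 0` for all `0 < k ≤ N`, then for all `0 < k ≤ N`:
  `w k ≠ 0` and `(x - x(k • P)) * w k ^ 2 = w (k + 1) * w (k - 1)`;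
* `mfZ`: if `r ≥ 2` is the exact order of `P` then `w r = 0`;
* `smul_eq_zero_iff_psiAt`: for `n ≥ 1`: `n • P = 0 ↔ w n = 0`.

Proof: `x`-only differential addition (`DivX.biq_eq`) + Somos-4 (`normEDS_somos4`), then the
descent of `ZeroTors.lean` with the full elliptic relation (`normEDS_rel`).
-/

set_option autoImplicit false
set_option linter.unusedSectionVars false

namespace Fermat.Agent.S13

open WeierstrassCurve WeierstrassCurve.Affine Fermat.Agent.S05 Fermat.Agent.S13.DivX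

variable {K : Type*} [Field K] [DecidableEq K] {W : WeierstrassCurve K}

lemma psiAt_zero (x y : K) : psiAt W x y 0 = 0 := by simp [psiAt]

lemma psiAt_somos4 (x y : K) (m : ℤ) :
    psiAt W x y (m + 2) * psiAt W x y (m - 2) =
      psiAt W x y (m + 1) * psiAt W x y (m - 1) * psiAt W x y 2 ^ 2
        - psiAt W x y 3 * psiAt W x y m ^ 2 := by
  rw [psiAt_two, psiAt_three]
  exact normEDS_somos4 _ _ _ m

lemma psiAt_ellRel (x y : K) : EllRel (psiAt W x y) := fun m n =>
  normEDS_rel _ _ _ m n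

/-- `w₂² = cub(x)` on the curve. -/
lemma psiAt_two_sq {x y : K} (h : W.toAffine.Equation x y) :
    psiAt W x y 2 ^ 2 = cub W x := by
  rw [psiAt_two, ← eta_sq W h]; rfl

/-- The MF property at the index `k`. -/
def MFAt (W : WeierstrassCurve K) (x y : K) (P : W.toAffine.Point) (k : ℕ) : Prop :=
  psiAt W x y k ≠ 0 ∧
    (x - xOf (k • P)) * psiAt W x y k ^ 2 = psiAt W x y ((k : ℤ) + 1) * psiAt W x y ((k : ℤ) - 1)

lemma xOf_smul_ne {P : W.toAffine.Point} (hP : P ≠ 0) (k : ℕ) (hk : k • P ≠ 0)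
    (hkm : (k - 1) • P ≠ 0) (hkp : (k + 1) • P ≠ 0) (hk1 : 1 ≤ k) : xOf (k • P) ≠ xOf P := by
  intro hx
  rcases eq_or_eq_neg_of_xOf_eq hk hP hx with h' | h'
  · apply hkm
    have : k • P = (k - 1) • P + P := by
      conv_lhs => rw [show k = (k - 1) + 1 by omega]
      rw [succ_nsmul]
    rw [this] at h'
    simp at h'
    exact h'
  · apply hkp
    rw [succ_nsmul, h']
    simp

section MF

variable (h2 : (2 : K) ≠ 0) {x y : K} (h : W.toAffine.Nonsingular x y)

include h2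

lemma mfAt_one : MFAt W x y (Point.some x y h) 1 := by
  refine ⟨by simp, ?_⟩
  simp [psiAt_zero]

lemma mfAt_two (hP2 : 2 • (Point.some x y h) ≠ 0) : MFAt W x y (Point.some x y h) 2 := by
  have hP : (Point.some x y h : W.toAffine.Point) ≠ 0 := Point.some_ne_zero h
  have hη : psiAt W x y 2 ≠ 0 := by
    rw [psiAt_two]
    intro h0
    exact hP2 ((two_nsmul_eq_zero_iff hP).2 h0)
  refine ⟨by exact_mod_cast hη, ?_⟩
  have hd := xOf_two_nsmul hP hP2
  rw [xOf_some] at hd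
  have hc := psiAt_two_sq (W := W) h.1
  have h3 := cub_mul_sub_dupNum W x
  have e1 : (((2 : ℕ) : ℤ) + 1) = 3 := by norm_num
  have e2 : (((2 : ℕ) : ℤ) - 1) = 1 := by norm_num
  have e3 : (((2 : ℕ) : ℤ)) = 2 := by norm_num
  rw [e1, e2, e3, psiAt_one, psiAt_three, hc, mul_one]
  simp only [Ψ₃, Polynomial.eval_add, Polynomial.eval_mul, Polynomial.eval_pow,
    Polynomial.eval_X, Polynomial.eval_C, Polynomial.eval_ofNat]
  linear_combination h3 - hd

lemma mfAt_three (hP2 : 2 • (Point.some x y h) ≠ 0) (hP3 : 3 • (Point.some x y h) ≠ 0) :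
    MFAt W x y (Point.some x y h) 3 := by
  have hP : (Point.some x y h : W.toAffine.Point) ≠ 0 := Point.some_ne_zero h
  obtain ⟨hw2, hf2⟩ := mfAt_two h2 h hP2
  have e1 : (((2 : ℕ) : ℤ) + 1) = 3 := by norm_num
  have e2 : (((2 : ℕ) : ℤ) - 1) = 1 := by norm_num
  have e3 : (((2 : ℕ) : ℤ)) = 2 := by norm_num
  rw [e1, e2, e3, psiAt_one, mul_one] at hf2
  rw [e3] at hw2
  have hx : xOf (2 • (Point.some x y h)) ≠ xOf (Point.some x y h) :=
    xOf_smul_ne hP 2 hP2 (by simp [hP]) hP3 (by norm_num)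
  rw [xOf_some] at hx
  have hw3 : psiAt W x y 3 ≠ 0 := by
    rw [← hf2]
    exact mul_ne_zero (sub_ne_zero.2 (Ne.symm hx)) (pow_ne_zero _ hw2)
  refine ⟨by exact_mod_cast hw3, ?_⟩
  obtain ⟨-, -, hS, -⟩ := xOf_add_sub h2 hP2 hP (by rw [xOf_some]; exact hx)
  have hadd : 2 • (Point.some x y h) + Point.some x y h = 3 • (Point.some x y h) := by
    exact (succ_nsmul (Point.some x y h) 2).symm
  have hsub : 2 • (Point.some x y h) - Point.some x y h = Point.some x y h := by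
    rw [two_nsmul]; simp
  rw [hadd, hsub, xOf_some] at hS
  have hc := psiAt_two_sq (W := W) h.1
  have h4 := eval_preΨ₄ W x
  have f1 : (((3 : ℕ) : ℤ) + 1) = 4 := by norm_num
  have f2 : (((3 : ℕ) : ℤ) - 1) = 2 := by norm_num
  have f3 : (((3 : ℕ) : ℤ)) = 3 := by norm_num
  rw [f1, f2, f3, psiAt_four, ← psiAt_two (W := W) x y]
  rw [hc] at hf2
  rw [psiAt_three] at hf2 ⊢
  have hc' : psiAt W x y 2 * psiAt W x y 2 = cub W x := by rw [← hc]; ring
  set x₂ := xOf (2 • (Point.some x y h)) with hx₂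
  set x₃ := xOf (3 • (Point.some x y h)) with hx₃
  set w₃ := Polynomial.eval x W.Ψ₃ with hw₃
  have key : (x - x₃) * w₃ ^ 2 = Polynomial.eval x W.preΨ₄ * cub W x := by
    simp only [sumNum] at hS
    rw [h4]
    simp only [cub, dcub] at hf2 ⊢
    linear_combination (exp := 1)
      (-(4 * x ^ 3 + W.b₂ * x ^ 2 + 2 * W.b₄ * x + W.b₆) ^ 2) * hS
      + (-((x - x₃) * (w₃ + (x - x₂) * (4 * x ^ 3 + W.b₂ * x ^ 2 + 2 * W.b₄ * x + W.b₆))
          - (6 * x ^ 2 + W.b₂ * x + W.b₄) * (4 * x ^ 3 + W.b₂ * x ^ 2 + 2 * W.b₄ * x + W.b₆)))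
        * hf2
  rw [key, ← hc']
  ring

omit h2 in
/-- The algebra of the induction step. -/
lemma mf_step_alg {a b c₀ d e X1 Xm Xk w2 w3 : K} (ha : a ≠ 0) (hb : b ≠ 0) (hc : c₀ ≠ 0)
    (hk : Xk * c₀ ^ 2 = d * b) (hkm : Xm * b ^ 2 = c₀ * a)
    (hs : e * a = d * b * w2 ^ 2 - w3 * c₀ ^ 2)
    (hbiq : X1 * Xm * Xk ^ 2 = Xk * w2 ^ 2 - w3) : X1 * d ^ 2 = e * c₀ := by
  have hne : a * c₀ * b ^ 2 ≠ 0 := mul_ne_zero (mul_ne_zero ha hc) (pow_ne_zero _ hb)
  have key : (X1 * d ^ 2 - e * c₀) * (a * c₀ * b ^ 2) = 0 := by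
    linear_combination (b ^ 2 * c₀ ^ 4) * hbiq
      + (w2 ^ 2 * b ^ 2 * c₀ ^ 2 - X1 * Xm * b ^ 2 * (Xk * c₀ ^ 2 + d * b)) * hk
      - (X1 * (d * b) ^ 2) * hkm - (b ^ 2 * c₀ ^ 2) * hs
  rcases mul_eq_zero.1 key with h' | h'
  · exact sub_eq_zero.1 h'
  · exact absurd h' hne

lemma mfAt_succ (k : ℕ) (hk : 3 ≤ k) (hPk : k • (Point.some x y h) ≠ 0)
    (hPkm : (k - 1) • (Point.some x y h) ≠ 0) (hPkp : (k + 1) • (Point.some x y h) ≠ 0)
    (IHk : MFAt W x y (Point.some x y h) k) (IHkm : MFAt W x y (Point.some x y h) (k - 1))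
    (IHkmm : MFAt W x y (Point.some x y h) (k - 2)) :
    MFAt W x y (Point.some x y h) (k + 1) := by
  have hP : (Point.some x y h : W.toAffine.Point) ≠ 0 := Point.some_ne_zero h
  have hx : xOf (k • (Point.some x y h)) ≠ xOf (Point.some x y h) :=
    xOf_smul_ne hP k hPk hPkm hPkp (by omega)
  have hbiq := biq_eq h2 hPk hP hx x
  have hadd : k • (Point.some x y h) + Point.some x y h = (k + 1) • (Point.some x y h) :=
    (succ_nsmul (Point.some x y h) k).symm
  have hsub : k • (Point.some x y h) - Point.some x y h = (k - 1) • (Point.some x y h) := by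
    have : k • (Point.some x y h) = (k - 1) • (Point.some x y h) + Point.some x y h := by
      conv_lhs => rw [show k = (k - 1) + 1 by omega]
      rw [succ_nsmul]
    rw [this]; simp
  rw [hadd, hsub, biq_comm₁₂, xOf_some, biq_self] at hbiq
  rw [xOf_some] at hx
  obtain ⟨hwk, hfk⟩ := IHk
  obtain ⟨hwkm, hfkm⟩ := IHkm
  obtain ⟨hwkmm, -⟩ := IHkmm
  -- index bookkeeping
  have i1 : (((k - 1 : ℕ) : ℤ)) = (k : ℤ) - 1 := by
    have : 1 ≤ k := by omega
    push_cast [this]; ring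
  have i2 : (((k - 2 : ℕ) : ℤ)) = (k : ℤ) - 2 := by
    have : 2 ≤ k := by omega
    push_cast [this]; ring
  have i3 : (((k + 1 : ℕ) : ℤ)) = (k : ℤ) + 1 := by push_cast; ring
  have j1 : ((k : ℤ) - 1 + 1) = k := by ring
  have j2 : ((k : ℤ) - 1 - 1) = (k : ℤ) - 2 := by ring
  have j3 : ((k : ℤ) + 1 + 1) = (k : ℤ) + 2 := by ring
  have j4 : ((k : ℤ) + 1 - 1) = k := by ring
  rw [i1] at hwkm hfkm
  rw [j1, j2] at hfkm
  rw [i2] at hwkmm
  have hsom := psiAt_somos4 (W := W) x y (k : ℤ)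
  have hc := psiAt_two_sq (W := W) h.1
  have h3 := cub_mul_sub_dupNum W x
  have hw3 : psiAt W x y 3 = 3 * x ^ 4 + W.b₂ * x ^ 3 + 3 * W.b₄ * x ^ 2 + 3 * W.b₆ * x + W.b₈ := by
    rw [psiAt_three]
    simp only [Ψ₃, Polynomial.eval_add, Polynomial.eval_mul, Polynomial.eval_pow,
      Polynomial.eval_X, Polynomial.eval_C, Polynomial.eval_ofNat]
  have hwkp : psiAt W x y ((k : ℤ) + 1) ≠ 0 := by
    intro h0
    rw [h0, zero_mul] at hfk
    rcases mul_eq_zero.1 hfk with h' | h'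
    · exact hx (sub_eq_zero.1 h').symm
    · exact hwk ((pow_eq_zero_iff two_ne_zero).1 h')
  refine ⟨by rw [i3]; exact hwkp, ?_⟩
  rw [i3, j3, j4]
  refine mf_step_alg (w2 := psiAt W x y 2) (w3 := psiAt W x y 3)
    (Xm := x - xOf ((k - 1) • Point.some x y h)) (Xk := x - xOf (k • Point.some x y h))
    hwkmm hwkm hwk hfk hfkm ?_ ?_
  · linear_combination hsom
  · rw [hc, hw3]
    linear_combination hbiq - h3

theorem mf (N : ℕ) (hN : ∀ k : ℕ, 0 < k → k ≤ N → k • (Point.some x y h) ≠ 0) :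
    ∀ k : ℕ, 0 < k → k ≤ N → MFAt W x y (Point.some x y h) k := by
  intro k
  induction k using Nat.strong_induction_on with
  | _ k ih =>
    intro hk hkN
    rcases Nat.lt_or_ge k 4 with h4 | h4
    · have : k = 1 ∨ k = 2 ∨ k = 3 := by omega
      rcases this with rfl | rfl | rfl
      · exact mfAt_one h2 h
      · exact mfAt_two h2 h (hN 2 (by norm_num) hkN)
      · exact mfAt_three h2 h (hN 2 (by norm_num) (by omega)) (hN 3 (by norm_num) hkN)
    · obtain ⟨j, rfl⟩ : ∃ j, k = j + 1 := ⟨k - 1, by omega⟩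
      exact mfAt_succ h2 h j (by omega) (hN j (by omega) (by omega))
        (hN (j - 1) (by omega) (by omega)) (hN (j + 1) (by omega) hkN)
        (ih j (by omega) (by omega) (by omega))
        (ih (j - 1) (by omega) (by omega) (by omega))
        (ih (j - 2) (by omega) (by omega) (by omega))

/-- (Z): at the exact order `r ≥ 2` of `P`, `ψ_r(P) = 0`. -/
theorem mfZ (r : ℕ) (hr : 2 ≤ r) (hmin : ∀ k : ℕ, 0 < k → k < r → k • (Point.some x y h) ≠ 0)
    (hr0 : r • (Point.some x y h) = 0) : psiAt W x y r = 0 := by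
  have hP : (Point.some x y h : W.toAffine.Point) ≠ 0 := Point.some_ne_zero h
  rcases Nat.lt_or_ge r 3 with h3 | h3
  · have : r = 2 := by omega
    subst this
    have := (two_nsmul_eq_zero_iff hP).1 hr0
    rw [etaOf_some] at this
    have e : (((2 : ℕ) : ℤ)) = 2 := by norm_num
    rw [e, psiAt_two]
    exact this
  · have hmf := mf h2 h (r - 1) (fun k hk hkr => hmin k hk (by omega))
    obtain ⟨hw1, hf1⟩ := hmf (r - 1) (by omega) le_rfl
    obtain ⟨hw2, -⟩ := hmf (r - 2) (by omega) (by omega)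
    have hneg : (r - 1) • (Point.some x y h) = -(Point.some x y h) := by
      have : r • (Point.some x y h) = (r - 1) • (Point.some x y h) + Point.some x y h := by
        conv_lhs => rw [show r = (r - 1) + 1 by omega]
        rw [succ_nsmul]
      rw [this] at hr0
      exact eq_neg_of_add_eq_zero_left hr0
    rw [hneg, xOf_neg, xOf_some, sub_self, zero_mul] at hf1
    have i1 : (((r - 1 : ℕ) : ℤ)) + 1 = (r : ℤ) := by
      have : 1 ≤ r := by omega
      push_cast [this]; ring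
    have i2 : (((r - 1 : ℕ) : ℤ)) - 1 = ((r - 2 : ℕ) : ℤ) := by
      have h1 : 1 ≤ r := by omega
      have h2' : 2 ≤ r := by omega
      push_cast [h1, h2']; ring
    rw [i1, i2] at hf1
    rcases mul_eq_zero.1 hf1.symm with h' | h'
    · exact h'
    · exact absurd h' hw2

/-- **Division polynomial criterion** at a point, for `n ≥ 1`: `ψ_n(P) = 0 ⇒ n • P = 0`. -/
theorem smul_eq_zero_of_psiAt_eq_zero (n : ℕ) (hn : 0 < n) (h0 : psiAt W x y n = 0) :
    n • (Point.some x y h) = 0 :=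
  zeroTors_abstract (Point.some x y h) (psiAt W x y) (psiAt_ellRel x y) (psiAt_one W x y)
    (fun N hN k hk hkN => (mf h2 h N hN k hk hkN).1)
    (fun r hr hmin hr0 => mfZ h2 h r hr hmin hr0)
    (fun h20 => psiAt_three_ne_zero W h2 h h20)
    (fun h20 h30 => psiAt_four_ne_zero W h.1 h20 h30) n hn h0

/-- **Division polynomial criterion** at a point, for a prime `p`:
`p • P = 0 ⇒ ψ_p(P) = 0`. -/
theorem psiAt_eq_zero_of_smul_eq_zero {p : ℕ} (hp : p.Prime)
    (h0 : p • (Point.some x y h) = 0) : psiAt W x y p = 0 := by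
  have hP : (Point.some x y h : W.toAffine.Point) ≠ 0 := Point.some_ne_zero h
  refine mfZ h2 h p hp.two_le (fun k hk hkp hk0 => ?_) h0
  -- `k • P = 0` and `p • P = 0` with `gcd k p = 1` give `P = 0`
  have hcop : Nat.Coprime k p :=
    Nat.Coprime.symm ((Nat.Prime.coprime_iff_not_dvd hp).2 (Nat.not_dvd_of_pos_of_lt hk hkp))
  have hg : (Nat.gcd k p : ℤ) = 1 := by exact_mod_cast hcop
  have hb := Int.gcd_eq_gcd_ab k p
  have hz : ((k : ℤ) * Int.gcdA k p + (p : ℤ) * Int.gcdB k p) • (Point.some x y h) = 0 := by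
    rw [add_smul, mul_comm (k : ℤ), mul_comm (p : ℤ), mul_smul, mul_smul, natCast_zsmul,
      natCast_zsmul, hk0, h0, smul_zero, smul_zero, add_zero]
  rw [← hb] at hz
  have : ((Nat.gcd k p : ℕ) : ℤ) • (Point.some x y h) = 0 := hz
  rw [hg, one_smul] at this
  exact hP this

end MF

end Fermat.Agent.S13
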