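import Mathlib
import Fermat.Prelude.Def_FLTPrelim_GaloisRep

/-!
# S13, piece P2: consequences of the division-polynomial criterion

Input (hypothesis `OddCriterion W n`): for every nonsingular affine point `P = (x, y)` of `W`,
`n • P = 0 ↔ (W.preΨ n).eval x = 0` (`n` odd, so `ψ_n = preΨ_n` is a polynomial in `X` alone).

Output: `E[n]` is finite with at most `n ^ 2` elements, it is nontrivial over an algebraically
closed field, and the roots of `preΨ n` are exactly the `x`-coordinates of the nonzero `n`-torsion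
points.  Module-theoretic corollaries for `n = p` prime are at the end.
-/

set_option autoImplicit false

namespace Fermat.Agent.S13

open WeierstrassCurve WeierstrassCurve.Affine Polynomial

section general

variable {F : Type*} [Field F] (W : WeierstrassCurve.Affine F)

/-- On the curve, the bivariate `ψ n` and `Ψ n` take the same value. -/
theorem tc_evalEval_ψ_eq_Ψ (n : ℤ) {x y : F} (h : W.Equation x y) :
    (W.ψ n).evalEval x y = (W.Ψ n).evalEval x y := by
  have h1 := WeierstrassCurve.Affine.CoordinateRing.mk_ψ W n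
  rw [WeierstrassCurve.Affine.CoordinateRing.mk, AdjoinRoot.mk_eq_mk] at h1
  obtain ⟨q, hq⟩ := h1
  have h2 : W.ψ n = W.Ψ n + W.polynomial * q := by rw [← hq]; ring
  rw [h2, evalEval_add, evalEval_mul]
  have : W.polynomial.evalEval x y = 0 := h
  rw [this, zero_mul, add_zero]

/-- For odd `n`, on the curve, the bivariate `ψ n` evaluates to `preΨ n`. -/
theorem tc_evalEval_ψ_of_odd {n : ℕ} (hn : Odd n) {x y : F} (h : W.Equation x y) :
    (W.ψ (n : ℤ)).evalEval x y = (W.preΨ (n : ℤ)).eval x := by
  have hne : ¬ Even (n : ℤ) := by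
    rw [Int.not_even_iff_odd]
    exact_mod_cast hn
  rw [tc_evalEval_ψ_eq_Ψ W _ h, WeierstrassCurve.Ψ, if_neg hne, mul_one]
  simp [Polynomial.evalEval]

variable [DecidableEq F]

/-- The division polynomial criterion for odd `n`, in terms of the univariate `preΨ n`. -/
def OddCriterion (n : ℕ) : Prop :=
  ∀ (x y : F) (h : W.Nonsingular x y),
    (n : ℤ) • Point.some x y h = 0 ↔ (W.preΨ (n : ℤ)).eval x = 0

/-- Adapter: the criterion in terms of the bivariate `ψ n` gives `OddCriterion` for odd `n`. -/
theorem oddCriterion_of_ψ {n : ℕ} (hn : Odd n)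
    (hcrit : ∀ (x y : F) (h : W.Nonsingular x y),
      (n : ℤ) • Point.some x y h = 0 ↔ (W.ψ (n : ℤ)).evalEval x y = 0) :
    OddCriterion W n := by
  intro x y h
  rw [hcrit x y h, tc_evalEval_ψ_of_odd W hn h.1]

omit [DecidableEq F] in
/-- Degree bound for `preΨ n`, `n` odd. -/
theorem tc_natDegree_preΨ_le {n : ℕ} (hn : Odd n) :
    (W.preΨ (n : ℤ)).natDegree ≤ (n ^ 2 - 1) / 2 := by
  have hne : ¬ Even (n : ℤ) := by
    rw [Int.not_even_iff_odd]
    exact_mod_cast hn
  have := W.natDegree_preΨ_le (n : ℤ)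
  rwa [if_neg hne, Int.natAbs_natCast] at this

omit [DecidableEq F] in
/-- The monic quadratic in `Y` cutting out the points of the curve above `x`. -/
theorem tc_exists_quad (x : F) : ∃ q : F[X], q.natDegree = 2 ∧ q ≠ 0 ∧
    ∀ y : F, q.eval y = 0 ↔ W.Equation x y := by
  refine ⟨X ^ 2 + C (W.a₁ * x + W.a₃) * X - C (x ^ 3 + W.a₂ * x ^ 2 + W.a₄ * x + W.a₆), ?_, ?_, ?_⟩
  · compute_degree!
  · intro h
    have h2 : (X ^ 2 + C (W.a₁ * x + W.a₃) * X
        - C (x ^ 3 + W.a₂ * x ^ 2 + W.a₄ * x + W.a₆) : F[X]).natDegree = 2 := by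
      compute_degree!
    rw [h, natDegree_zero] at h2
    exact absurd h2 (by norm_num)
  · intro y
    rw [equation_iff]
    simp only [eval_sub, eval_add, eval_mul, eval_pow, eval_X, eval_C]
    constructor
    · intro h; linear_combination h
    · intro h; linear_combination h

/-- The quadratic of `tc_exists_quad`, chosen. -/
noncomputable def tc_quad (x : F) : F[X] := (tc_exists_quad W x).choose

omit [DecidableEq F] in
theorem tc_quad_natDegree (x : F) : (tc_quad W x).natDegree = 2 :=
  (tc_exists_quad W x).choose_spec.1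

omit [DecidableEq F] in
theorem tc_quad_ne_zero (x : F) : tc_quad W x ≠ 0 :=
  (tc_exists_quad W x).choose_spec.2.1

omit [DecidableEq F] in
theorem tc_quad_eval (x y : F) : (tc_quad W x).eval y = 0 ↔ W.Equation x y :=
  (tc_exists_quad W x).choose_spec.2.2 y

/-- The finite set of all `(x, y)` on the curve with `f(x) = 0`. -/
noncomputable def tc_pairs (f : F[X]) : Finset (F × F) :=
  f.roots.toFinset.biUnion fun x => (tc_quad W x).roots.toFinset.image fun y => (x, y)

omit [DecidableEq F] in
theorem tc_mem_pairs [DecidableEq F] {f : F[X]} (hf : f ≠ 0) {x y : F} (hx : f.eval x = 0)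
    (h : W.Equation x y) : (x, y) ∈ tc_pairs W f := by
  unfold tc_pairs
  rw [Finset.mem_biUnion]
  refine ⟨x, ?_, ?_⟩
  · rw [Multiset.mem_toFinset, mem_roots hf]
    exact hx
  · rw [Finset.mem_image]
    refine ⟨y, ?_, rfl⟩
    rw [Multiset.mem_toFinset, mem_roots (tc_quad_ne_zero W x)]
    exact (tc_quad_eval W x y).2 h

theorem tc_card_pairs_le (f : F[X]) : (tc_pairs W f).card ≤ 2 * f.natDegree := by
  unfold tc_pairs
  refine le_trans Finset.card_biUnion_le ?_
  have h1 : ∀ x ∈ f.roots.toFinset,
      ((tc_quad W x).roots.toFinset.image fun y => (x, y)).card ≤ 2 := by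
    intro x _
    refine le_trans Finset.card_image_le ?_
    refine le_trans (Multiset.toFinset_card_le _) ?_
    refine le_trans (card_roots' _) ?_
    rw [tc_quad_natDegree]
  refine le_trans (Finset.sum_le_card_nsmul _ _ 2 h1) ?_
  have h2 : f.roots.toFinset.card ≤ f.natDegree :=
    le_trans (Multiset.toFinset_card_le _) (card_roots' _)
  rw [smul_eq_mul]
  omega

/-- The finite set of "codes" of the points whose `x`-coordinate is a root of `f`. -/
noncomputable def tc_codes (f : F[X]) : Finset (Option (F × F)) :=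
  insert none ((tc_pairs W f).image some)

theorem tc_card_codes_le (f : F[X]) : (tc_codes W f).card ≤ 2 * f.natDegree + 1 := by
  unfold tc_codes
  refine le_trans (Finset.card_insert_le _ _) ?_
  have := le_trans (Finset.card_image_le (f := (some : F × F → Option (F × F)))
    (s := tc_pairs W f)) (tc_card_pairs_le W f)
  omega

/-- The code of a point. -/
def tc_code : W.Point → Option (F × F)
  | .zero => none
  | .some x y _ => some (x, y)

omit [DecidableEq F] in
theorem tc_code_injective : Function.Injective (tc_code W) := by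
  intro P Q h
  cases P with
  | zero =>
    cases Q with
    | zero => rfl
    | some x y h' => simp [tc_code] at h
  | some x y hP =>
    cases Q with
    | zero => simp [tc_code] at h
    | some x' y' hQ =>
      simp only [tc_code, Option.some.injEq, Prod.mk.injEq] at h
      obtain ⟨rfl, rfl⟩ := h
      rfl

/-- If the `x`-coordinates of all nonzero points of a set `S` are roots of `f ≠ 0`, then `S` is
finite with at most `2 deg f + 1` elements. -/
theorem tc_finite_of_roots {f : F[X]} (hf : f ≠ 0) (S : Set W.Point)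
    (hS : ∀ (x y : F) (h : W.Nonsingular x y), Point.some x y h ∈ S → f.eval x = 0) :
    S.Finite ∧ Nat.card S ≤ 2 * f.natDegree + 1 := by
  have hmaps : ∀ P ∈ S, tc_code W P ∈ tc_codes W f := by
    intro P hP
    cases P with
    | zero => simp [tc_code, tc_codes]
    | some x y h =>
      have hx := hS x y h hP
      simp only [tc_code, tc_codes, Finset.mem_insert, reduceCtorEq, Finset.mem_image,
        Option.some.injEq, exists_eq_right, false_or]
      exact tc_mem_pairs W hf hx h.1
  have hinj : Function.Injective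
      (fun P : S => (⟨tc_code W P.1, hmaps P.1 P.2⟩ : {c // c ∈ tc_codes W f})) := by
    intro P Q hPQ
    have := congrArg Subtype.val hPQ
    exact Subtype.ext (tc_code_injective W this)
  have hfin : Finite S := Finite.of_injective _ hinj
  refine ⟨Set.toFinite S, ?_⟩
  have hcard := Nat.card_le_card_of_injective _ hinj
  refine le_trans hcard ?_
  rw [Nat.card_eq_fintype_card, Fintype.card_coe]
  exact tc_card_codes_le W f

/-- **P2 (finiteness and cardinality).**  Under the criterion, `E[n]` is finite with at most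
`n ^ 2` elements (`n` odd, invertible in `F`). -/
theorem tc_torsion_finite_card_le {n : ℕ} (hodd : Odd n) (hn : (n : F) ≠ 0)
    (hcrit : OddCriterion W n) :
    Finite (Submodule.torsionBy ℤ W.Point (n : ℤ)) ∧
      Nat.card (Submodule.torsionBy ℤ W.Point (n : ℤ)) ≤ n ^ 2 := by
  have hf : W.preΨ (n : ℤ) ≠ 0 := W.preΨ_ne_zero (by exact_mod_cast hn)
  have key := tc_finite_of_roots W hf
    (S := (Submodule.torsionBy ℤ W.Point (n : ℤ) : Set W.Point)) (by
      intro x y h hP
      rw [SetLike.mem_coe, Submodule.mem_torsionBy_iff] at hP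
      exact (hcrit x y h).1 hP)
  refine ⟨key.1, le_trans key.2 ?_⟩
  have hdeg := tc_natDegree_preΨ_le W hodd
  obtain ⟨k, rfl⟩ := hodd
  have h1 : (2 * k + 1) ^ 2 - 1 = 2 * (2 * k ^ 2 + 2 * k) := by
    have : (2 * k + 1) ^ 2 = 2 * (2 * k ^ 2 + 2 * k) + 1 := by ring
    omega
  rw [h1, Nat.mul_div_cancel_left _ (by norm_num : 0 < 2)] at hdeg
  have h2 : (2 * k + 1) ^ 2 = 2 * (2 * k ^ 2 + 2 * k) + 1 := by ring
  omega

/-- **P2 (roots are `x`-coordinates).**  Over an algebraically closed field, every root of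
`preΨ n` is the `x`-coordinate of a nonzero `n`-torsion point. -/
theorem tc_exists_point_of_root [IsAlgClosed F] (hΔ : W.Δ ≠ 0) {n : ℕ}
    (hcrit : OddCriterion W n) {ξ : F} (hξ : (W.preΨ (n : ℤ)).eval ξ = 0) :
    ∃ (y : F) (h : W.Nonsingular ξ y), (n : ℤ) • Point.some ξ y h = 0 := by
  have hq : (tc_quad W ξ).degree ≠ 0 := by
    rw [degree_eq_natDegree (tc_quad_ne_zero W ξ), tc_quad_natDegree]
    norm_num
  obtain ⟨y, hy⟩ := IsAlgClosed.exists_root (tc_quad W ξ) hq
  have heq : W.Equation ξ y := (tc_quad_eval W ξ y).1 hy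
  have hns : W.Nonsingular ξ y := (W.equation_iff_nonsingular_of_Δ_ne_zero hΔ).1 heq
  exact ⟨y, hns, (hcrit ξ y hns).2 hξ⟩

/-- **P2 (`x`-coordinates are roots).** -/
theorem tc_root_of_point {n : ℕ} (hcrit : OddCriterion W n) {x y : F} (h : W.Nonsingular x y)
    (hP : (n : ℤ) • Point.some x y h = 0) : (W.preΨ (n : ℤ)).eval x = 0 :=
  (hcrit x y h).1 hP

/-- **P2 (roots ↔ torsion).**  Over an algebraically closed field, the roots of `preΨ n` are
exactly the `x`-coordinates of the nonzero points of `E[n]`. -/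
theorem tc_root_iff [IsAlgClosed F] (hΔ : W.Δ ≠ 0) {n : ℕ} (hcrit : OddCriterion W n) (ξ : F) :
    (W.preΨ (n : ℤ)).eval ξ = 0 ↔
      ∃ (y : F) (h : W.Nonsingular ξ y),
        Point.some ξ y h ∈ Submodule.torsionBy ℤ W.Point (n : ℤ) := by
  constructor
  · intro hξ
    obtain ⟨y, h, hP⟩ := tc_exists_point_of_root W hΔ hcrit hξ
    exact ⟨y, h, (Submodule.mem_torsionBy_iff _ _).2 hP⟩
  · rintro ⟨y, h, hP⟩
    exact tc_root_of_point W hcrit h ((Submodule.mem_torsionBy_iff _ _).1 hP)

/-- **P2 (nontriviality).**  Over an algebraically closed field in which `n ≥ 3` (odd) is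
invertible, `E[n]` is nontrivial. -/
theorem tc_torsion_nontrivial [IsAlgClosed F] (hΔ : W.Δ ≠ 0) {n : ℕ} (h3 : 3 ≤ n)
    (hn : (n : F) ≠ 0) (hcrit : OddCriterion W n) :
    Nontrivial (Submodule.torsionBy ℤ W.Point (n : ℤ)) := by
  have hpos : 0 < (W.preΨ (n : ℤ)).natDegree :=
    W.natDegree_preΨ_pos (by rw [Int.natAbs_natCast]; omega) (by exact_mod_cast hn)
  have hdeg : (W.preΨ (n : ℤ)).degree ≠ 0 := by
    rw [degree_eq_natDegree (W.preΨ_ne_zero (by exact_mod_cast hn))]
    exact_mod_cast hpos.ne'
  obtain ⟨ξ, hξ⟩ := IsAlgClosed.exists_root (W.preΨ (n : ℤ)) hdeg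
  obtain ⟨y, h, hP⟩ := tc_exists_point_of_root W hΔ hcrit hξ
  refine ⟨⟨⟨Point.some ξ y h, (Submodule.mem_torsionBy_iff _ _).2 hP⟩, 0, ?_⟩⟩
  intro h0
  have := congrArg Subtype.val h0
  exact Point.some_ne_zero h this

end general

/-! ### Module-theoretic corollaries -/

section module

variable {p : ℕ} [Fact p.Prime] {M : Type*} [AddCommGroup M] [Module (ZMod p) M]

/-- A nontrivial `ZMod p`-module with at most `p ^ 2` elements and a proper nonzero submodule `N`
has exactly `p ^ 2` elements, and `N` has exactly `p` elements. -/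
theorem tc_card_of_proper [Finite M] (hcard : Nat.card M ≤ p ^ 2)
    (N : Submodule (ZMod p) M) (hbot : N ≠ ⊥) (htop : N ≠ ⊤) :
    Nat.card M = p ^ 2 ∧ Nat.card N = p ∧ Module.finrank (ZMod p) M = 2 ∧
      Module.finrank (ZMod p) N = 1 := by
  have hp : p.Prime := Fact.out
  have hM := Module.natCard_eq_pow_finrank (K := ZMod p) (V := M)
  have hN := Module.natCard_eq_pow_finrank (K := ZMod p) (V := N)
  rw [Nat.card_zmod] at hM hN
  have h2 : Module.finrank (ZMod p) M ≤ 2 := by
    rw [hM] at hcard
    exact (Nat.pow_le_pow_iff_right hp.one_lt).1 hcard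
  have hlt : Module.finrank (ZMod p) N < Module.finrank (ZMod p) M :=
    Submodule.finrank_lt htop
  have hpos : 0 < Module.finrank (ZMod p) N := by
    rw [Module.finrank_pos_iff]
    exact (Submodule.nontrivial_iff_ne_bot).2 hbot
  have hN1 : Module.finrank (ZMod p) N = 1 := by omega
  have hM2 : Module.finrank (ZMod p) M = 2 := by omega
  refine ⟨by rw [hM, hM2], by rw [hN, hN1, pow_one], hM2, hN1⟩

/-- In the situation of `tc_card_of_proper`, `N` is spanned by any of its nonzero elements. -/
theorem tc_line_eq_span [Finite M] (hcard : Nat.card M ≤ p ^ 2)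
    (N : Submodule (ZMod p) M) (hbot : N ≠ ⊥) (htop : N ≠ ⊤) {x : M} (hx : x ∈ N) (hx0 : x ≠ 0) :
    N = Submodule.span (ZMod p) {x} := by
  have h1 := (tc_card_of_proper hcard N hbot htop).2.2.2
  symm
  apply Submodule.eq_of_le_of_finrank_eq
  · rw [Submodule.span_le]
    exact Set.singleton_subset_iff.2 hx
  · rw [h1]
    exact finrank_span_singleton hx0

/-- In the situation of `tc_card_of_proper`, every element of `N` is a multiple of any given
nonzero element of `N`. -/
theorem tc_line_exists_smul [Finite M] (hcard : Nat.card M ≤ p ^ 2)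
    (N : Submodule (ZMod p) M) (hbot : N ≠ ⊥) (htop : N ≠ ⊤) {x : M} (hx : x ∈ N) (hx0 : x ≠ 0)
    {z : M} (hz : z ∈ N) : ∃ k : ZMod p, z = k • x := by
  rw [tc_line_eq_span hcard N hbot htop hx hx0, Submodule.mem_span_singleton] at hz
  obtain ⟨k, hk⟩ := hz
  exact ⟨k, hk.symm⟩

/-- In the situation of `tc_card_of_proper`, the quotient `M ⧸ N` is a line: modulo `N`, every
element is a multiple of any given element outside `N`. -/
theorem tc_quot_exists_smul [Finite M] (hcard : Nat.card M ≤ p ^ 2)
    (N : Submodule (ZMod p) M) (hbot : N ≠ ⊥) (htop : N ≠ ⊤) {x : M} (hx : x ∉ N) (z : M) :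
    ∃ k : ZMod p, z - k • x ∈ N := by
  obtain ⟨_, _, hM2, hN1⟩ := tc_card_of_proper hcard N hbot htop
  have hq : Module.finrank (ZMod p) (M ⧸ N) = 1 := by
    have := Submodule.finrank_quotient_add_finrank N
    omega
  have hx' : N.mkQ x ≠ 0 := by
    intro h
    exact hx ((Submodule.Quotient.mk_eq_zero N).1 h)
  have hspan : Submodule.span (ZMod p) {N.mkQ x} = ⊤ := by
    apply Submodule.eq_top_of_finrank_eq
    rw [hq]
    exact finrank_span_singleton hx'
  have hz : N.mkQ z ∈ Submodule.span (ZMod p) {N.mkQ x} := by rw [hspan]; trivial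
  rw [Submodule.mem_span_singleton] at hz
  obtain ⟨k, hk⟩ := hz
  refine ⟨k, ?_⟩
  rw [← Submodule.Quotient.mk_eq_zero N]
  have : N.mkQ (z - k • x) = 0 := by
    rw [map_sub, map_smul, hk, sub_self]
  exact this

end module

end Fermat.Agent.S13
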