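import Mathlib
import Fermat.Agent.S13.Interface
import Fermat.Agent.S13.TorsionCount

/-!
# S13, piece P2 for the Frey curve: `StmtNontrivial` and `StmtCard`

Both are deduced from the division polynomial criterion for the Frey curve over `ℚ̄`
(`p • (x, y) = 0 ↔ preΨ_p(x) = 0`), which is taken as a hypothesis (piece P1c).
The general statements (any Weierstrass curve over any field) are in `TorsionCount.lean`.
-/

set_option autoImplicit false

namespace Fermat.Agent.S13

open WeierstrassCurve WeierstrassCurve.Affine WeierstrassCurve.Affine.Point Polynomial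

/-- The discriminant of the Frey curve is `(a^p b^p c^p)^2 / 256`. -/
theorem frey_Δ_eq (P : FreyPackage) :
    P.freyCurve.Δ = ((P.a : ℚ) ^ P.p * (P.b : ℚ) ^ P.p * (P.c : ℚ) ^ P.p) ^ 2 / 256 := by
  have hflt : (P.a : ℚ) ^ P.p + (P.b : ℚ) ^ P.p = (P.c : ℚ) ^ P.p := by
    exact_mod_cast P.hFLT
  simp only [WeierstrassCurve.Δ, WeierstrassCurve.b₂, WeierstrassCurve.b₄, WeierstrassCurve.b₆,
    WeierstrassCurve.b₈, FreyPackage.freyCurve]
  rw [← hflt]
  ring

theorem frey_Δ_ne_zero (P : FreyPackage) : P.freyCurve.Δ ≠ 0 := by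
  rw [frey_Δ_eq]
  have ha : (P.a : ℚ) ≠ 0 := by exact_mod_cast P.ha0
  have hb : (P.b : ℚ) ≠ 0 := by exact_mod_cast P.hb0
  have hc : (P.c : ℚ) ≠ 0 := by exact_mod_cast P.hc0
  positivity

/-- The discriminant of the Frey curve over any field extension of `ℚ` is nonzero. -/
theorem frey_baseChange_Δ_ne_zero (P : FreyPackage) (K : Type*) [Field K] [Algebra ℚ K] :
    (P.freyCurve.baseChange K).Δ ≠ 0 := by
  rw [WeierstrassCurve.baseChange, WeierstrassCurve.map_Δ]
  intro h
  exact frey_Δ_ne_zero P ((map_eq_zero_iff _ (algebraMap ℚ K).injective).1 h)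

/-- The criterion in the `ℕ`-scalar form used in the interface gives `OddCriterion`. -/
theorem frey_oddCriterion (P : FreyPackage)
    (hcrit : ∀ (x y : Qbar) (h : (P.freyCurve⁄Qbar).Nonsingular x y),
      P.p • (Point.some x y h : (P.freyCurve⁄Qbar).Point) = 0 ↔
        ((P.freyCurve.baseChange Qbar).preΨ P.p).eval x = 0) :
    OddCriterion (P.freyCurve.baseChange Qbar) P.p := by
  intro x y h
  rw [natCast_zsmul]
  exact hcrit x y h

/-- **P2 for the Frey curve.**  Given the division polynomial criterion for the Frey curve over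
`ℚ̄`, the module `E[p](ℚ̄)` is nontrivial and finite with at most `p ^ 2` elements. -/
theorem frey_torsion_nontrivial_card (P : FreyPackage)
    (hcrit : ∀ (x y : Qbar) (h : (P.freyCurve⁄Qbar).Nonsingular x y),
      P.p • (Point.some x y h : (P.freyCurve⁄Qbar).Point) = 0 ↔
        ((P.freyCurve.baseChange Qbar).preΨ P.p).eval x = 0) :
    Nontrivial (Tors P) ∧ Finite (Tors P) ∧ Nat.card (Tors P) ≤ P.p ^ 2 := by
  have hp : ((P.p : ℕ) : Qbar) ≠ 0 := by
    exact_mod_cast P.hp0
  have hΔ := frey_baseChange_Δ_ne_zero P Qbar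
  have h3 : 3 ≤ P.p := le_trans (by norm_num) P.hp5
  have hc := frey_oddCriterion P hcrit
  have h1 := tc_torsion_nontrivial (P.freyCurve.baseChange Qbar) hΔ h3 hp hc
  have h2 := tc_torsion_finite_card_le (P.freyCurve.baseChange Qbar) P.hp_odd hp hc
  exact ⟨h1, h2.1, h2.2⟩

/-- **P2a**: `StmtNontrivial` from the criterion. -/
theorem stmtNontrivial_of_criterion
    (hcrit : ∀ (P : FreyPackage) (x y : Qbar) (h : (P.freyCurve⁄Qbar).Nonsingular x y),
      P.p • (Point.some x y h : (P.freyCurve⁄Qbar).Point) = 0 ↔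
        ((P.freyCurve.baseChange Qbar).preΨ P.p).eval x = 0) :
    StmtNontrivial :=
  fun P => (frey_torsion_nontrivial_card P (hcrit P)).1

/-- **P2b**: `StmtCard` from the criterion. -/
theorem stmtCard_of_criterion
    (hcrit : ∀ (P : FreyPackage) (x y : Qbar) (h : (P.freyCurve⁄Qbar).Nonsingular x y),
      P.p • (Point.some x y h : (P.freyCurve⁄Qbar).Point) = 0 ↔
        ((P.freyCurve.baseChange Qbar).preΨ P.p).eval x = 0) :
    StmtCard :=
  fun P => (frey_torsion_nontrivial_card P (hcrit P)).2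

/-- Every root of `preΨ_p` over `ℚ̄` is the `x`-coordinate of a nonzero point of `E[p]`, and
conversely (for the Frey curve). -/
theorem frey_root_iff (P : FreyPackage)
    (hcrit : ∀ (x y : Qbar) (h : (P.freyCurve⁄Qbar).Nonsingular x y),
      P.p • (Point.some x y h : (P.freyCurve⁄Qbar).Point) = 0 ↔
        ((P.freyCurve.baseChange Qbar).preΨ P.p).eval x = 0) (ξ : Qbar) :
    ((P.freyCurve.baseChange Qbar).preΨ P.p).eval ξ = 0 ↔
      ∃ (y : Qbar) (h : (P.freyCurve⁄Qbar).Nonsingular ξ y),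
        (Point.some ξ y h : (P.freyCurve⁄Qbar).Point) ∈
          Submodule.torsionBy ℤ (P.freyCurve⁄Qbar).Point P.p :=
  tc_root_iff (P.freyCurve.baseChange Qbar) (frey_baseChange_Δ_ne_zero P Qbar)
    (frey_oddCriterion P hcrit) ξ

/-- Degree of `preΨ_p` for the Frey curve over `ℚ̄`. -/
theorem frey_natDegree_preΨ (P : FreyPackage) :
    ((P.freyCurve.baseChange Qbar).preΨ P.p).natDegree = (P.p ^ 2 - 1) / 2 := by
  have hp : (((P.p : ℕ) : ℤ) : Qbar) ≠ 0 := by
    exact_mod_cast P.hp0
  have hne : ¬ Even ((P.p : ℕ) : ℤ) := by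
    rw [Int.not_even_iff_odd]
    exact_mod_cast P.hp_odd
  have := (P.freyCurve.baseChange Qbar).natDegree_preΨ hp
  rwa [if_neg hne, Int.natAbs_natCast] at this

/-- Leading coefficient of `preΨ_p` for the Frey curve over `ℚ̄`. -/
theorem frey_leadingCoeff_preΨ (P : FreyPackage) :
    ((P.freyCurve.baseChange Qbar).preΨ P.p).leadingCoeff = (P.p : Qbar) := by
  have hp : (((P.p : ℕ) : ℤ) : Qbar) ≠ 0 := by
    exact_mod_cast P.hp0
  have hne : ¬ Even ((P.p : ℕ) : ℤ) := by
    rw [Int.not_even_iff_odd]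
    exact_mod_cast P.hp_odd
  have := (P.freyCurve.baseChange Qbar).leadingCoeff_preΨ hp
  rw [if_neg hne] at this
  rw [this]
  push_cast
  ring

end Fermat.Agent.S13
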