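import Mathlib

/-!
# S13 assembly: abstract linear algebra

A group `G` acts additively on a finite `ZMod p`-module `T` with at most `p²` elements, and `N` is a
`G`-stable submodule, `N ≠ ⊥, ⊤`.  Then `N` and `T ⧸ N` are lines, and a unipotent `σ`
(`(σ - 1)² = 0`) acts trivially on both.
-/

set_option autoImplicit false
set_option linter.style.haveILetI false

namespace Fermat.Agent.S13

section abs

variable {p : ℕ} [Fact p.Prime] {G T : Type*} [Group G] [AddCommGroup T] [Module (ZMod p) T]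
  [DistribMulAction G T]

/-- An additive action commutes with the `ZMod p`-scalars. -/
theorem asm_smul_zmod_smul (σ : G) (c : ZMod p) (x : T) : σ • (c • x) = c • (σ • x) := by
  have h : ∀ n : ℕ, σ • ((n : ZMod p) • x) = (n : ZMod p) • (σ • x) := by
    intro n
    rw [Nat.cast_smul_eq_nsmul, Nat.cast_smul_eq_nsmul]
    exact map_nsmul (DistribSMul.toAddMonoidHom T σ) n x
  have := h c.val
  rwa [ZMod.natCast_zmod_val] at this

theorem asm_smul_sub' (σ : G) (x y : T) : σ • (x - y) = σ • x - σ • y :=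
  smul_sub σ x y

variable (p) in
/-- The two finranks. -/
theorem asm_finrank [Finite T] (hcard : Nat.card T ≤ p ^ 2) (N : Submodule (ZMod p) T)
    (hbot : N ≠ ⊥) (htop : N ≠ ⊤) :
    Module.finrank (ZMod p) N = 1 ∧ Module.finrank (ZMod p) T = 2 := by
  have hp : p.Prime := Fact.out
  letI : Fintype T := Fintype.ofFinite T
  have hT : Nat.card T = p ^ Module.finrank (ZMod p) T := by
    rw [Nat.card_eq_fintype_card, Module.card_eq_pow_finrank (K := ZMod p) (V := T), ZMod.card]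
  have h2 : Module.finrank (ZMod p) T ≤ 2 := by
    rw [hT] at hcard
    exact (Nat.pow_le_pow_iff_right hp.one_lt).1 hcard
  have h1 : 0 < Module.finrank (ZMod p) N := by
    rw [Module.finrank_pos_iff]
    exact (Submodule.nontrivial_iff_ne_bot).2 hbot
  have h3 : Module.finrank (ZMod p) N < Module.finrank (ZMod p) T :=
    Submodule.finrank_lt htop
  omega

variable (p) in
/-- `N` is a line. -/
theorem asm_line [Finite T] (hcard : Nat.card T ≤ p ^ 2) (N : Submodule (ZMod p) T)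
    (hbot : N ≠ ⊥) (htop : N ≠ ⊤) :
    ∃ v ∈ N, v ≠ 0 ∧ ∀ x ∈ N, ∃ c : ZMod p, x = c • v := by
  obtain ⟨h1, -⟩ := asm_finrank p hcard N hbot htop
  obtain ⟨v, hv0, hv⟩ := finrank_eq_one_iff'.1 h1
  refine ⟨v.1, v.2, fun h => hv0 (Subtype.ext h), fun x hx => ?_⟩
  obtain ⟨c, hc⟩ := hv ⟨x, hx⟩
  exact ⟨c, by simpa using (congrArg Subtype.val hc).symm⟩

variable (p) in
/-- `T ⧸ N` is a line. -/
theorem asm_coline [Finite T] (hcard : Nat.card T ≤ p ^ 2) (N : Submodule (ZMod p) T)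
    (hbot : N ≠ ⊥) (htop : N ≠ ⊤) :
    ∃ w : T, w ∉ N ∧ ∀ x : T, ∃ c : ZMod p, x - c • w ∈ N := by
  obtain ⟨h1, h2⟩ := asm_finrank p hcard N hbot htop
  have hq : Module.finrank (ZMod p) (T ⧸ N) = 1 := by
    have := Submodule.finrank_quotient_add_finrank N
    omega
  obtain ⟨w', hw0, hw⟩ := finrank_eq_one_iff'.1 hq
  obtain ⟨w, rfl⟩ := Submodule.Quotient.mk_surjective N w'
  refine ⟨w, fun h => hw0 ((Submodule.Quotient.mk_eq_zero N).2 h), fun x => ?_⟩
  obtain ⟨c, hc⟩ := hw (Submodule.Quotient.mk x)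
  refine ⟨c, ?_⟩
  rw [← Submodule.Quotient.mk_eq_zero N, Submodule.Quotient.mk_sub, Submodule.Quotient.mk_smul, hc,
    sub_self]

/-- A scalar `c` with `(c - 1)² • v = 0`, `v ≠ 0`, is `1`. -/
theorem asm_scalar_eq_one {c : ZMod p} {v : T} (hv : v ≠ 0) (h : ((c - 1) * (c - 1)) • v = 0) :
    c = 1 := by
  rcases smul_eq_zero.1 h with h | h
  · rcases mul_self_eq_zero.1 h with h
    exact sub_eq_zero.1 h
  · exact absurd h hv

variable (p) in
/-- A unipotent `σ` fixes the stable line `N` pointwise. -/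
theorem asm_unip_fix [Finite T] (hcard : Nat.card T ≤ p ^ 2) (N : Submodule (ZMod p) T)
    (hstab : ∀ σ : G, ∀ x ∈ N, σ • x ∈ N) (hbot : N ≠ ⊥) (htop : N ≠ ⊤) (σ : G)
    (hσ : ∀ x : T, σ • (σ • x - x) = σ • x - x) : ∀ x ∈ N, σ • x = x := by
  obtain ⟨v, hvN, hv0, hv⟩ := asm_line p hcard N hbot htop
  obtain ⟨a, ha⟩ := hv (σ • v) (hstab σ v hvN)
  have h1 : ((a - 1) * (a - 1)) • v = 0 := by
    have := hσ v
    rw [ha, asm_smul_sub', asm_smul_zmod_smul, ha] at this
    have h2 : ((a - 1) * (a - 1)) • v = a • a • v - a • v - (a • v - v) := by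
      simp only [sub_smul, mul_smul, one_smul, smul_sub]
    rw [h2, this, sub_self]
  have ha1 : a = 1 := asm_scalar_eq_one hv0 h1
  rw [ha1, one_smul] at ha
  intro x hx
  obtain ⟨c, rfl⟩ := hv x hx
  rw [asm_smul_zmod_smul, ha]

variable (p) in
/-- A unipotent `σ` acts trivially on `T ⧸ N`. -/
theorem asm_unip_cofix [Finite T] (hcard : Nat.card T ≤ p ^ 2) (N : Submodule (ZMod p) T)
    (hstab : ∀ σ : G, ∀ x ∈ N, σ • x ∈ N) (hbot : N ≠ ⊥) (htop : N ≠ ⊤) (σ : G)
    (hσ : ∀ x : T, σ • (σ • x - x) = σ • x - x) : ∀ x : T, σ • x - x ∈ N := by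
  have hfix := asm_unip_fix p hcard N hstab hbot htop σ hσ
  obtain ⟨w, hwN, hw⟩ := asm_coline p hcard N hbot htop
  obtain ⟨d, hd⟩ := hw (σ • w)
  -- `n' = σ w - d w ∈ N`
  set n' : T := σ • w - d • w with hn'
  have hσw : σ • w = d • w + n' := by rw [hn']; abel
  have hfn : σ • n' = n' := hfix n' hd
  -- `(σ - 1)² w = (d - 1)² w + (d - 1) n'`
  have key : ((d - 1) * (d - 1)) • w + (d - 1) • n' = 0 := by
    have := hσ w
    have e1 : σ • w - w = (d - 1) • w + n' := by
      rw [hσw, sub_smul, one_smul]; abel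
    rw [e1, smul_add, asm_smul_zmod_smul, hfn, hσw] at this
    have e2 : ((d - 1) * (d - 1)) • w + (d - 1) • n' =
        (d - 1) • (d • w + n') + n' - ((d - 1) • w + n') := by
      simp only [sub_smul, mul_smul, one_smul, smul_sub, smul_add]
      abel
    rw [e2, this, sub_self]
  have hmem : ((d - 1) * (d - 1)) • w ∈ N := by
    have : ((d - 1) * (d - 1)) • w = -((d - 1) • n') := eq_neg_of_add_eq_zero_left key
    rw [this]
    exact N.neg_mem (N.smul_mem _ hd)
  have hd1 : d = 1 := by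
    by_contra hne
    have hc : (d - 1) * (d - 1) ≠ 0 := mul_ne_zero (sub_ne_zero.2 hne) (sub_ne_zero.2 hne)
    apply hwN
    have := N.smul_mem ((d - 1) * (d - 1))⁻¹ hmem
    rwa [smul_smul, inv_mul_cancel₀ hc, one_smul] at this
  have hw1 : σ • w - w ∈ N := by
    have : σ • w - w = n' := by rw [hn', hd1, one_smul]
    rw [this]; exact hd
  intro x
  obtain ⟨c, hc⟩ := hw x
  -- `x = c w + n`, `n ∈ N`
  have hx : σ • x - x = c • (σ • w - w) + (σ • (x - c • w) - (x - c • w)) := by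
    rw [asm_smul_sub', asm_smul_zmod_smul, smul_sub]
    abel
  rw [hx]
  refine N.add_mem (N.smul_mem c hw1) ?_
  rw [hfix _ hc, sub_self]
  exact N.zero_mem

/-- The pointwise stabiliser of a stable submodule `N`. -/
def asmFix (N : Submodule (ZMod p) T) : Subgroup G where
  carrier := {σ | ∀ x ∈ N, σ • x = x}
  mul_mem' := fun {a b} ha hb x hx => by rw [mul_smul, hb x hx, ha x hx]
  one_mem' := fun x _ => one_smul G x
  inv_mem' := fun {a} ha x hx => by
    have := congrArg (fun y => a⁻¹ • y) (ha x hx)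
    simp only [inv_smul_smul] at this
    exact this.symm

theorem mem_asmFix {N : Submodule (ZMod p) T} {σ : G} :
    σ ∈ asmFix (G := G) N ↔ ∀ x ∈ N, σ • x = x := Iff.rfl

theorem asmFix_normal (N : Submodule (ZMod p) T) (hstab : ∀ σ : G, ∀ x ∈ N, σ • x ∈ N) :
    (asmFix (G := G) N).Normal := by
  refine ⟨fun σ hσ g x hx => ?_⟩
  rw [mul_smul, mul_smul, hσ _ (hstab g⁻¹ x hx), smul_inv_smul]

/-- The subgroup acting trivially on `T ⧸ N`, for a stable `N`. -/
def asmCofix (N : Submodule (ZMod p) T) (hstab : ∀ σ : G, ∀ x ∈ N, σ • x ∈ N) : Subgroup G where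
  carrier := {σ | ∀ x : T, σ • x - x ∈ N}
  mul_mem' := fun {a b} ha hb x => by
    have h : (a * b) • x - x = a • (b • x - x) + (a • x - x) := by
      rw [mul_smul, smul_sub]; abel
    rw [h]
    exact N.add_mem (hstab a _ (hb x)) (ha x)
  one_mem' := fun x => by rw [one_smul, sub_self]; exact N.zero_mem
  inv_mem' := fun {a} ha x => by
    have h : a⁻¹ • x - x = -(a⁻¹ • (a • x - x)) := by
      rw [smul_sub, inv_smul_smul]; abel
    rw [h]
    exact N.neg_mem (hstab a⁻¹ _ (ha x))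

theorem mem_asmCofix {N : Submodule (ZMod p) T} {hstab : ∀ σ : G, ∀ x ∈ N, σ • x ∈ N} {σ : G} :
    σ ∈ asmCofix N hstab ↔ ∀ x : T, σ • x - x ∈ N := Iff.rfl

theorem asm_sub_mem_of_fix (N : Submodule (ZMod p) T) (σ : G) (x : T) (h : σ • x = x) :
    σ • x - x ∈ N := by
  rw [h, sub_self]
  exact N.zero_mem

theorem asmCofix_normal (N : Submodule (ZMod p) T) (hstab : ∀ σ : G, ∀ x ∈ N, σ • x ∈ N) :
    (asmCofix N hstab).Normal := by
  refine ⟨fun σ hσ g x => ?_⟩
  have h : (g * σ * g⁻¹) • x - x = g • (σ • (g⁻¹ • x) - g⁻¹ • x) := by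
    rw [mul_smul, mul_smul, smul_sub, smul_inv_smul]
  rw [h]
  exact hstab g _ (hσ _)

end abs

end Fermat.Agent.S13
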