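import Mathlib
import Fermat.Agent.S05.FreyArith
import Fermat.Agent.S51.GaloisFixed
import Fermat.Agent.S13.Interface

/-!
# S13, piece P5 (step at `p`), part 3: three small lemmas

* `stepP_aux_coeff_mem`: the division polynomials `preΨ n` of a curve with coefficients in a
  valuation subring `A` have coefficients in `A`.
* `stepP_aux_rat_inv_mem`: a rational number that is not in `A` (a place over `q`) has
  `(q * r)⁻¹ ∈ A`.
* `stepP_aux_prod_rat`: the product of a Galois-stable finite set of algebraic numbers is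
  rational.
* `stepP_aux_prod_not_mem`: a nonempty product of elements outside `A` is outside `A`.
-/

set_option autoImplicit false

namespace Fermat.Agent.S13

open Polynomial Fermat.Agent.S05

section Coeff

variable {L : Type*} [Field L]

theorem stepP_aux_coeff_mem (A : ValuationSubring L) (W : WeierstrassCurve L)
    (h₁ : W.a₁ ∈ A) (h₂ : W.a₂ ∈ A) (h₃ : W.a₃ ∈ A) (h₄ : W.a₄ ∈ A) (h₆ : W.a₆ ∈ A)
    (n : ℤ) (i : ℕ) : (W.preΨ n).coeff i ∈ A := by
  let WA : WeierstrassCurve A := ⟨⟨W.a₁, h₁⟩, ⟨W.a₂, h₂⟩, ⟨W.a₃, h₃⟩, ⟨W.a₄, h₄⟩, ⟨W.a₆, h₆⟩⟩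
  have hmap : WA.map A.subtype = W := by
    ext <;> rfl
  rw [← hmap, WeierstrassCurve.map_preΨ, Polynomial.coeff_map]
  exact SetLike.coe_mem _

/-- A nonempty product of elements outside `A` is outside `A`. -/
theorem stepP_aux_prod_not_mem (A : ValuationSubring L) (M : Multiset L)
    (hM : ∀ ξ ∈ M, ξ ∉ A) (h0 : M ≠ 0) : M.prod ∉ A := by
  have key : ∀ M : Multiset L, (∀ ξ ∈ M, ξ ∉ A) → M ≠ 0 → 1 < A.valuation M.prod := by
    intro M
    induction M using Multiset.induction_on with
    | empty => intro _ h; exact absurd rfl h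
    | cons a s ih =>
      intro hM _
      have ha : 1 < A.valuation a := by
        have := hM a (Multiset.mem_cons_self a s)
        rw [← A.valuation_le_one_iff] at this
        exact not_le.1 this
      rw [Multiset.prod_cons, map_mul]
      by_cases hs : s = 0
      · subst hs
        simpa using ha
      · have h1 := ih (fun ξ hξ => hM ξ (Multiset.mem_cons_of_mem hξ)) hs
        exact one_lt_mul_of_lt_of_le' ha h1.le
  intro hmem
  have := key M hM h0
  rw [← A.valuation_le_one_iff] at hmem
  exact absurd hmem (not_le.2 this)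

end Coeff

section Rat

variable {L : Type*} [Field L] [Algebra ℚ L]

theorem stepP_aux_rat_inv_mem (A : ValuationSubring L) {q : ℕ} (hq : q.Prime)
    (hA : A.LiesOverPrime q) (r : ℚ) (hr : algebraMap ℚ L r ∉ A) :
    ((q : L) * algebraMap ℚ L r)⁻¹ ∈ A := by
  have hchar := charZero_of_algebraRat L
  have hrw : algebraMap ℚ L r = (r.num : L) / (r.den : L) := by
    conv_lhs => rw [← Rat.num_div_den r]
    rw [map_div₀]
    simp
  have hden0 : (r.den : L) ≠ 0 := by exact_mod_cast r.den_ne_zero
  have hq0 : (q : L) ≠ 0 := by exact_mod_cast hq.ne_zero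
  by_cases hd : q ∣ r.den
  · -- `q ∤ num`
    have hn : ¬ (q : ℤ) ∣ r.num := by
      intro hn
      have h1 : q ∣ r.num.natAbs := Int.natCast_dvd.1 hn
      have h2 := Nat.dvd_gcd h1 hd
      rw [r.reduced.gcd_eq_one] at h2
      exact hq.one_lt.ne' (Nat.dvd_one.1 h2)
    have hvn : A.valuation (r.num : L) = 1 := (valuation_intCast_eq_one_iff A hq hA _).2 hn
    have hnum0 : (r.num : L) ≠ 0 := by
      intro h0
      rw [h0, map_zero] at hvn
      exact zero_ne_one hvn
    obtain ⟨d', hd'⟩ := hd
    have e : ((q : L) * algebraMap ℚ L r)⁻¹ = (d' : L) * (r.num : L)⁻¹ := by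
      rw [hrw]
      have : (r.den : L) = (q : L) * (d' : L) := by rw [hd']; push_cast; ring
      rw [this]
      have hd'0 : (d' : L) ≠ 0 := by
        intro h0
        rw [h0, mul_zero] at this
        exact hden0 this
      field_simp
    rw [e]
    refine mul_mem (natCast_mem A d') ?_
    rw [← A.valuation_le_one_iff, map_inv₀, hvn, inv_one]
  · exfalso
    apply hr
    have hvd : A.valuation (r.den : L) = 1 := (valuation_natCast_eq_one_iff A hq hA _).2 hd
    rw [hrw, ← A.valuation_le_one_iff, map_div₀, hvd, div_one, A.valuation_le_one_iff]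
    exact intCast_mem A _

end Rat

section Prod

/-- The product of a Galois-stable finite set of algebraic numbers is rational. -/
theorem stepP_aux_prod_rat (S : Finset Qbar) (hS : ∀ σ : Gal, ∀ s ∈ S, σ s ∈ S) :
    ∃ r : ℚ, algebraMap ℚ Qbar r = ∏ s ∈ S, s := by
  classical
  apply Fermat.Agent.S51.galois_fixed_rat
  intro σ
  rw [map_prod]
  have himg : S.image (fun s => σ s) = S := by
    apply Finset.eq_of_subset_of_card_le
    · intro t ht
      obtain ⟨s, hs, rfl⟩ := Finset.mem_image.1 ht
      exact hS σ s hs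
    · rw [Finset.card_image_of_injective _ σ.injective]
  conv_rhs => rw [← himg]
  rw [Finset.prod_image]
  intro a _ b _ hab
  exact σ.injective hab

end Prod

end Fermat.Agent.S13
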