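import Mathlib

/-!
# S13, piece P5 (step at `p`), part 1: a Gauss-type lemma for valuation subrings

If `f = c * ∏ (X - ξ)` (over a multiset `s` of roots) has all coefficients in a valuation
subring `A`, then `c * ∏_{ξ ∈ s, ξ ∉ A} ξ ∈ A`.

Proof: peel the roots off one at a time.
* `ξ ∈ A`: `(X - ξ) * h` integral ⇒ `h` integral (downward recursion on coefficients).
* `ξ ∉ A`: `(X - ξ) * h` integral ⇒ `ξ * h` integral (upward recursion, uses `ξ⁻¹ ∈ A`).
-/

set_option autoImplicit false

namespace Fermat.Agent.S13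

open Polynomial

variable {K : Type*} [Field K]

/-- Integral root: if `(X - C ξ) * h` has coefficients in `A` and `ξ ∈ A`, so has `h`. -/
theorem stepP_coeff_mem_of_root_mem (A : ValuationSubring K) {ξ : K} (hξ : ξ ∈ A) (h : K[X])
    (hg : ∀ i, ((X - C ξ) * h).coeff i ∈ A) : ∀ i, h.coeff i ∈ A := by
  have hrec : ∀ k, h.coeff k = ((X - C ξ) * h).coeff (k + 1) + ξ * h.coeff (k + 1) := by
    intro k
    rw [sub_mul, coeff_sub, coeff_X_mul, coeff_C_mul]
    ring
  have key : ∀ n k, h.natDegree + 1 ≤ k + n → h.coeff k ∈ A := by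
    intro n
    induction n with
    | zero =>
      intro k hk
      rw [coeff_eq_zero_of_natDegree_lt (by omega)]
      exact zero_mem A
    | succ n ih =>
      intro k hk
      rw [hrec k]
      exact add_mem (hg _) (mul_mem hξ (ih (k + 1) (by omega)))
  intro i
  exact key (h.natDegree + 1) i (by omega)

/-- Non-integral root: if `(X - C ξ) * h` has coefficients in `A` and `ξ⁻¹ ∈ A`, `ξ ≠ 0`,
then `C ξ * h` has coefficients in `A`. -/
theorem stepP_coeff_mem_of_root_inv_mem (A : ValuationSubring K) {ξ : K} (hξ0 : ξ ≠ 0)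
    (hξ : ξ⁻¹ ∈ A) (h : K[X])
    (hg : ∀ i, ((X - C ξ) * h).coeff i ∈ A) : ∀ i, (C ξ * h).coeff i ∈ A := by
  have h0 : ξ * h.coeff 0 = -((X - C ξ) * h).coeff 0 := by
    rw [sub_mul, coeff_sub, coeff_X_mul_zero, coeff_C_mul]
    ring
  have hrec : ∀ k, ξ * h.coeff (k + 1) =
      ξ⁻¹ * (ξ * h.coeff k) - ((X - C ξ) * h).coeff (k + 1) := by
    intro k
    rw [sub_mul, coeff_sub, coeff_X_mul, coeff_C_mul]
    field_simp
    ring
  intro i
  rw [coeff_C_mul]
  induction i with
  | zero =>
    rw [h0]
    exact neg_mem (hg 0)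
  | succ k ih =>
    rw [hrec k]
    exact sub_mem (mul_mem hξ ih) (hg _)

open Classical in
/-- **Gauss-type lemma.** If `C c * ∏_{ξ ∈ s} (X - C ξ)` has all its coefficients in the
valuation subring `A`, then `c` times the product of the roots outside `A` lies in `A`. -/
theorem stepP_gauss (A : ValuationSubring K) (s : Multiset K) :
    ∀ c : K, (∀ i, (C c * (s.map (fun ξ => X - C ξ)).prod).coeff i ∈ A) →
      c * (s.filter (fun ξ => ξ ∉ A)).prod ∈ A := by
  induction s using Multiset.induction_on with
  | empty =>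
    intro c hc
    have := hc 0
    simpa using this
  | cons a s ih =>
    intro c hc
    have hrw : C c * ((a ::ₘ s).map (fun ξ => X - C ξ)).prod =
        (X - C a) * (C c * (s.map (fun ξ => X - C ξ)).prod) := by
      rw [Multiset.map_cons, Multiset.prod_cons]
      ring
    rw [hrw] at hc
    by_cases ha : a ∈ A
    · have h1 := stepP_coeff_mem_of_root_mem A ha _ hc
      have h2 := ih c h1
      rw [Multiset.filter_cons_of_neg (p := fun ξ => ξ ∉ A) s (by simpa using ha)]
      exact h2
    · have ha0 : a ≠ 0 := by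
        rintro rfl
        exact ha (zero_mem A)
      have hainv : a⁻¹ ∈ A := (A.mem_or_inv_mem a).resolve_left ha
      have h1 := stepP_coeff_mem_of_root_inv_mem A ha0 hainv _ hc
      have h1' : ∀ i, (C (c * a) * (s.map (fun ξ => X - C ξ)).prod).coeff i ∈ A := by
        intro i
        have := h1 i
        rwa [← mul_assoc, ← C_mul, mul_comm a c] at this
      have h2 := ih (c * a) h1'
      rw [Multiset.filter_cons_of_pos (p := fun ξ => ξ ∉ A) s ha, Multiset.prod_cons,
        ← mul_assoc]
      exact h2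

open Classical in
/-- Valuation form of the Gauss-type lemma, for a polynomial that splits: with `v` the valuation
of `A`, `v (leadingCoeff f) * ∏_{ξ root, ξ ∉ A} v ξ ≤ 1`. -/
theorem stepP_gauss_roots [IsAlgClosed K] (A : ValuationSubring K) (f : K[X])
    (hf : ∀ i, f.coeff i ∈ A) :
    f.leadingCoeff * (f.roots.filter (fun ξ => ξ ∉ A)).prod ∈ A := by
  apply stepP_gauss A f.roots f.leadingCoeff
  have hsplit : f.Splits := IsAlgClosed.splits f
  have := hsplit.eq_prod_roots
  intro i
  rw [← this]
  exact hf i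

end Fermat.Agent.S13
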