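import Mathlib
import Fermat.Agent.S05.FreyFix
import Fermat.Agent.S05.Tropical

/-!
# S13, piece P5 (step at `p`), part 2: inertia moves integral torsion points inside the kernel
of reduction, in ANY odd residue characteristic

`stepP_local_move`: the statement of `S05.local_fix` without the hypothesis that `p` is a unit:
for an integral `p`-torsion point `Q = (x, y)` and `σ` in the inertia group, either `σ Q = Q`, or
`σ Q - Q = (x'', y'')` with `x'' ∉ A` (so `σ Q - Q` lies in the kernel of reduction).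

`stepP_frey_move`: the same for the Frey curve at a place over `P.p`.
-/

set_option autoImplicit false
set_option linter.unusedSectionVars false
set_option linter.unusedVariables false

namespace Fermat.Agent.S13

open WeierstrassCurve WeierstrassCurve.Affine Fermat.Agent.S05

section Integral

variable {K : Type*} [Field K]

/-- A point with integral `x`-coordinate on a curve with integral coefficients has integral
`y`-coordinate. -/
theorem stepP_y_mem (A : ValuationSubring K) (W : WeierstrassCurve K)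
    (h₁ : W.a₁ ∈ A) (h₂ : W.a₂ ∈ A) (h₃ : W.a₃ ∈ A) (h₄ : W.a₄ ∈ A) (h₆ : W.a₆ ∈ A)
    {x y : K} (h : W.toAffine.Equation x y) (hxA : x ∈ A) : y ∈ A := by
  by_contra hy
  obtain ⟨hy0, hv⟩ := vs_inv_of_not_mem A hy
  have heq := (Affine.equation_iff _ _).1 h
  have key : (1 : K) = y⁻¹ * ((x ^ 3 + W.a₂ * x ^ 2 + W.a₄ * x + W.a₆) * y⁻¹
      - W.a₁ * x - W.a₃) := by
    field_simp
    linear_combination heq
  have hmem : y⁻¹ * ((x ^ 3 + W.a₂ * x ^ 2 + W.a₄ * x + W.a₆) * y⁻¹
      - W.a₁ * x - W.a₃) ∈ A.nonunits := by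
    refine vs_mul_mem_nonunits' A hv ?_
    exact sub_mem (sub_mem (mul_mem (add_mem (add_mem (add_mem (pow_mem hxA 3)
      (mul_mem h₂ (pow_mem hxA 2))) (mul_mem h₄ hxA)) h₆) (vs_mem_of_nonunits A hv))
      (mul_mem h₁ hxA)) h₃
  rw [← key] at hmem
  have : A.valuation (1 : K) < 1 := A.mem_nonunits_iff.1 hmem
  rw [map_one] at this
  exact lt_irrefl _ this

end Integral

section LocalMove

variable {L : Type*} [Field L] [DecidableEq L] [Algebra ℚ L]

/-- `local_fix` without "`p` is a unit": an integral `p`-torsion point is moved by inertia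
inside the kernel of reduction. -/
theorem stepP_local_move (A : ValuationSubring L) {σ : L ≃ₐ[ℚ] L}
    (hσ : σ ∈ A.inertiaSubgroupIn ℚ)
    (W₀ : WeierstrassCurve ℚ)
    (h₁ : (W₀.baseChange L).a₁ ∈ A) (h₂ : (W₀.baseChange L).a₂ ∈ A)
    (h₃ : (W₀.baseChange L).a₃ ∈ A) (h₄ : (W₀.baseChange L).a₄ ∈ A)
    (h₆ : (W₀.baseChange L).a₆ ∈ A)
    (h2 : A.valuation (2 : L) = 1) (p : ℕ) (hp0 : p ≠ 0)
    (r₁ e₂ e₃ : L) (hσr : σ r₁ = r₁) (hr₁ : r₁ ∈ A)
    (hr : RootData (W₀.baseChange L) r₁ e₂ e₃)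
    (he₃ : A.valuation e₃ = 1) (he₂₃ : A.valuation (e₃ - e₂) = 1) (he₂ : A.valuation e₂ ≤ 1)
    (hnode : A.valuation e₂ < 1 → NodeHyp A (W₀.baseChange L) p r₁ e₂)
    {x y : L} (h : (W₀.baseChange L).toAffine.Nonsingular x y)
    (htors : p • Point.some x y h = 0) (hxA : x ∈ A)
    (h' : (W₀.baseChange L).toAffine.Nonsingular (σ x) (σ y))
    (hne : Point.some (σ x) (σ y) h' ≠ Point.some x y h) :
    ∃ (x'' y'' : L) (h'' : (W₀.baseChange L).toAffine.Nonsingular x'' y''),
      Point.some (σ x) (σ y) h' - Point.some x y h = Point.some x'' y'' h'' ∧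
        1 < A.valuation x'' := by
  classical
  obtain ⟨hb₂, hb₄, hb₆, hb₈⟩ := kernel_b_mem A h₁ h₂ h₃ h₄ h₆
  have hyA : y ∈ A := stepP_y_mem A _ h₁ h₂ h₃ h₄ h₆ h.1 hxA
  -- valuations
  have hvb₂ : A.valuation (W₀.baseChange L).b₂ ≤ 1 := (A.valuation_le_one_iff _).2 hb₂
  have hvb₄ : A.valuation (W₀.baseChange L).b₄ ≤ 1 := (A.valuation_le_one_iff _).2 hb₄
  have hvx : A.valuation x ≤ 1 := (A.valuation_le_one_iff _).2 hxA
  have hx'A : σ x ∈ A := (inertia_apply_mem_iff hσ x).2 hxA
  have hvx' : A.valuation (σ x) ≤ 1 := (A.valuation_le_one_iff _).2 hx'A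
  have hηA : eta (W₀.baseChange L) x y ∈ A := by
    simp only [eta]
    exact add_mem (add_mem (mul_mem (ofNat_mem A 2) hyA) (mul_mem h₁ hxA)) h₃
  have hvη : A.valuation (eta (W₀.baseChange L) x y) ≤ 1 := (A.valuation_le_one_iff _).2 hηA
  have hxx : A.valuation (σ x - x) < 1 :=
    (A.mem_nonunits_iff).1 (inertia_apply_sub_mem_nonunits hσ hxA)
  have hηη : A.valuation (eta (W₀.baseChange L) (σ x) (σ y) - eta (W₀.baseChange L) x y) < 1 := by
    rw [eta_galois]
    exact (A.mem_nonunits_iff).1 (inertia_apply_sub_mem_nonunits hσ hηA)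
  have hη_sq : eta (W₀.baseChange L) x y ^ 2 = 4 * (x - r₁) * (x - r₁ - e₂) * (x - r₁ - e₃) := by
    rw [eta_sq _ h.1, hr.cub_eq]
  have hdc := hr.dcub_eq x
  have hs₁ : A.valuation (x - r₁) ≤ 1 := (A.valuation_le_one_iff _).2 (sub_mem hxA hr₁)
  have he₂A : e₂ ∈ A := (A.valuation_le_one_iff _).1 he₂
  have he₃A : e₃ ∈ A := (A.valuation_le_one_iff _).1 he₃.le
  have hs₂ : A.valuation (x - r₁ - e₂) ≤ 1 :=
    (A.valuation_le_one_iff _).2 (sub_mem (sub_mem hxA hr₁) he₂A)
  have hs₃ : A.valuation (x - r₁ - e₃) ≤ 1 :=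
    (A.valuation_le_one_iff _).2 (sub_mem (sub_mem hxA hr₁) he₃A)
  rcases hs₁.lt_or_eq with hlt | heq
  · -- `x ≡ r₁`
    have hs₃' : A.valuation (x - r₁ - e₃) = 1 := by
      rw [Valuation.map_sub_eq_of_lt_right _ (by rw [he₃]; exact hlt), he₃]
    rcases he₂.lt_or_eq with he₂lt | he₂eq
    · -- the node case
      obtain ⟨⟨c, hc, hce⟩, htrop⟩ := hnode he₂lt
      obtain ⟨hlow, k, hk⟩ := htrop h htors hlt
      have hX0 : x - r₁ ≠ 0 := by
        intro h0
        rw [h0, map_zero] at hlow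
        exact not_lt_zero hlow
      have hvX0 : A.valuation (x - r₁) ≠ 0 := (Valuation.ne_zero_iff _).2 hX0
      have hs₂' : A.valuation (x - r₁ - e₂) = A.valuation (x - r₁) :=
        Valuation.map_sub_eq_of_lt_left _ hlow
      -- `v η = v (x - r₁)`
      have h4 : A.valuation (4 : L) = 1 := key_val_four _ h2
      have hηv : A.valuation (eta (W₀.baseChange L) x y) = A.valuation (x - r₁) := by
        have : A.valuation (eta (W₀.baseChange L) x y) ^ 2 = A.valuation (x - r₁) ^ 2 := by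
          rw [← map_pow, hη_sq, map_mul, map_mul, map_mul, h4, hs₂', hs₃', one_mul, mul_one,
            sq]
        exact (pow_left_inj₀ zero_le zero_le two_ne_zero).1 this
      have ht : A.valuation (eta (W₀.baseChange L) x y / (x - r₁)) = 1 := by
        rw [map_div₀, hηv, div_self hvX0]
      -- `v (x - r₁)` is the valuation of a rational number
      have hcL : algebraMap ℚ L c ≠ 0 := (map_ne_zero (algebraMap ℚ L)).2 hc
      have hvc : A.valuation (algebraMap ℚ L c) ≠ 0 := (Valuation.ne_zero_iff _).2 hcL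
      have hval : A.valuation (x - r₁) = A.valuation (algebraMap ℚ L (c ^ (2 * k))) := by
        have e1 : A.valuation (x - r₁) ^ p =
            (A.valuation (algebraMap ℚ L (c ^ (2 * k)))) ^ p := by
          rw [hk, hce, map_zpow₀, map_zpow₀, ← zpow_natCast, ← zpow_natCast, ← zpow_mul,
            ← zpow_mul, mul_comm]
        exact (pow_left_inj₀ zero_le zero_le hp0).1 e1
      have hc2k : c ^ (2 * k) ≠ 0 := zpow_ne_zero _ hc
      have hmove := inertia_valuation_apply_sub_lt hσ hc2k hval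
      have hxx' : A.valuation (σ x - x) < A.valuation (x - r₁) := by
        have e : σ (x - r₁) - (x - r₁) = σ x - x := by rw [map_sub, hσr]; ring
        rwa [e] at hmove
      have htA : eta (W₀.baseChange L) x y / (x - r₁) ∈ A :=
        (A.valuation_le_one_iff _).1 ht.le
      have htt : A.valuation (eta (W₀.baseChange L) (σ x) (σ y) / (σ x - r₁) -
          eta (W₀.baseChange L) x y / (x - r₁)) < 1 := by
        have e : eta (W₀.baseChange L) (σ x) (σ y) / (σ x - r₁) =
            σ (eta (W₀.baseChange L) x y / (x - r₁)) := by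
          rw [map_div₀, map_sub, hσr, eta_galois]
        rw [e]
        exact (A.mem_nonunits_iff).1 (inertia_apply_sub_mem_nonunits hσ htA)
      exact key_node _ hvb₂ h2 h h' r₁ hvx hvx' hX0 hxx' ht htt hne
    · -- `e₂` is a unit: no node
      have hs₂' : A.valuation (x - r₁ - e₂) = 1 := by
        rw [Valuation.map_sub_eq_of_lt_right _ (by rw [he₂eq]; exact hlt), he₂eq]
      have hns := hns_of_two_units A.valuation h2 (η := eta (W₀.baseChange L) x y)
        (c := 0) (d := dcub (W₀.baseChange L) x) (u₁ := x - r₁ - e₂) (u₂ := x - r₁ - e₃)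
        (s := x - r₁) (hη_sq.trans (by ring)) (hdc.trans (by ring)) hs₂' hs₃' hs₁
      exact key_nonsing _ hvb₂ hvb₄ h2 h h' hvx hvη hxx hηη hne hns
  · -- `x ≢ r₁`
    rcases hs₂.lt_or_eq with hlt₂ | heq₂
    · have hs₃' : A.valuation (x - r₁ - e₃) = 1 := by
        have e : x - r₁ - e₃ = (x - r₁ - e₂) - (e₃ - e₂) := by ring
        rw [e, Valuation.map_sub_eq_of_lt_right _ (by rw [he₂₃]; exact hlt₂), he₂₃]
      have hns := hns_of_two_units A.valuation h2 (η := eta (W₀.baseChange L) x y)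
        (c := 0) (d := dcub (W₀.baseChange L) x) (u₁ := x - r₁) (u₂ := x - r₁ - e₃)
        (s := x - r₁ - e₂) (hη_sq.trans (by ring)) (hdc.trans (by ring)) heq hs₃' hs₂
      exact key_nonsing _ hvb₂ hvb₄ h2 h h' hvx hvη hxx hηη hne hns
    · have hns := hns_of_two_units A.valuation h2 (η := eta (W₀.baseChange L) x y)
        (c := 0) (d := dcub (W₀.baseChange L) x) (u₁ := x - r₁) (u₂ := x - r₁ - e₂)
        (s := x - r₁ - e₃) (hη_sq.trans (by ring)) (hdc.trans (by ring)) heq heq₂ hs₃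
      exact key_nonsing _ hvb₂ hvb₄ h2 h h' hvx hvη hxx hηη hne hns

end LocalMove

section FreyMove

variable (P : FreyPackage) {L : Type*} [Field L] [DecidableEq L] [Algebra ℚ L]

/-- The tropical statement holds for the Frey curve at every place with `v 2 = 1`. -/
theorem stepP_freyTropical (A : ValuationSubring L) (h2 : A.valuation (2 : L) = 1) :
    FreyTropical P A := by
  intro r₁ e₂ e₃ hr hr₁ he₃ he₂ he₂0 x y h htors hx
  exact tropical_torsion A.valuation hr.hb₂ hr.hb₄ hr.hb₆ h2 he₃ he₂ he₂0 P.hp_odd h htors hx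

/-- For the Frey curve at an odd prime `q` (`q = P.p` allowed): inertia at `q` moves an integral
`p`-torsion point inside the kernel of reduction. -/
theorem stepP_frey_move {q : ℕ} (hq : q.Prime) (hq2 : q ≠ 2)
    (A : ValuationSubring L) (hA : A.LiesOverPrime q) {σ : L ≃ₐ[ℚ] L}
    (hσ : σ ∈ A.inertiaSubgroupIn ℚ)
    {x y : L} (h : (P.freyCurve.baseChange L).toAffine.Nonsingular x y)
    (htors : P.p • Point.some x y h = 0) (hxA : x ∈ A)
    (h' : (P.freyCurve.baseChange L).toAffine.Nonsingular (σ x) (σ y))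
    (hne : Point.some (σ x) (σ y) h' ≠ Point.some x y h) :
    ∃ (x'' y'' : L) (h'' : (P.freyCurve.baseChange L).toAffine.Nonsingular x'' y''),
      Point.some (σ x) (σ y) h' - Point.some x y h = Point.some x'' y'' h'' ∧
        1 < A.valuation x'' := by
  have hchar := charZero_of_algebraRat L
  obtain ⟨h₁, h₂, h₃, h₄, h₆⟩ := frey_coeff_mem P A hq hq2 hA
  have h2 : A.valuation (2 : L) = 1 := valuation_two_eq_one A hq hA hq2
  have h4 : A.valuation (4 : L) = 1 := valuation_four_eq_one A hq hA hq2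
  have htrop : FreyTropical P A := stepP_freyTropical P A h2
  have hflt := frey_flt_cast P L
  have hσint : ∀ n : ℤ, σ ((n : L) ^ P.p / 4) = (n : L) ^ P.p / 4 := by
    intro n
    rw [map_div₀, map_pow, galois_fixes_int, map_ofNat]
  have hmem : ∀ n : ℤ, (n : L) ^ P.p / 4 ∈ A := by
    intro n
    rw [← A.valuation_le_one_iff, valuation_div_of_eq_one A h4, A.valuation_le_one_iff]
    exact pow_mem (intCast_mem A n) _
  -- the node hypothesis in the three multiplicative cases
  have hnodeHyp : ∀ (n : ℤ) (r₁ e₂ e₃ : L), n ≠ 0 → A.valuation e₂ = A.valuation (n : L) ^ P.p →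
      RootData (P.freyCurve.baseChange L) r₁ e₂ e₃ → r₁ ∈ A → A.valuation e₃ = 1 →
      A.valuation e₂ < 1 → NodeHyp A (P.freyCurve.baseChange L) P.p r₁ e₂ := by
    intro n r₁ e₂ e₃ hn hval hr hr₁ he₃ he₂
    refine ⟨⟨(n : ℚ), by exact_mod_cast hn, ?_⟩, ?_⟩
    · rw [hval]
      congr 2
      simp
    · intro x y h ht hlt
      have he₂0 : e₂ ≠ 0 := by
        rw [← Valuation.ne_zero_iff A.valuation, hval]
        exact pow_ne_zero _ ((Valuation.ne_zero_iff _).2 (by exact_mod_cast hn))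
      exact htrop r₁ e₂ e₃ hr hr₁ he₃ he₂ he₂0 h ht hlt
  have hvpow : ∀ n : ℤ, A.valuation ((n : L) ^ P.p / 4) = A.valuation (n : L) ^ P.p := by
    intro n
    rw [valuation_div_of_eq_one A h4, map_pow]
  have hvnpow : ∀ n : ℤ, A.valuation (-((n : L) ^ P.p) / 4) = A.valuation (n : L) ^ P.p := by
    intro n
    rw [valuation_div_of_eq_one A h4, Valuation.map_neg, map_pow]
  rcases frey_cases P hq with ⟨ha, hb, hc⟩ | ⟨ha, hb, hc⟩ | ⟨ha, hb, hc⟩ | ⟨ha, hb, hc⟩
  · -- good reduction
    refine stepP_local_move A hσ P.freyCurve h₁ h₂ h₃ h₄ h₆ h2 P.p P.hp0 0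
      ((P.a : L) ^ P.p / 4)
      (-((P.b : L) ^ P.p) / 4) (map_zero σ) (zero_mem A) (frey_rootData_a P L)
      (valuation_neg_pow_div_four_eq_one A hq hq2 hA hb _) ?_
      (valuation_pow_div_four_eq_one A hq hq2 hA ha _).le ?_ h htors hxA h' hne
    · have e : -((P.b : L) ^ P.p) / 4 - (P.a : L) ^ P.p / 4 = -((P.c : L) ^ P.p) / 4 := by
        rw [← hflt]; ring
      rw [e]
      exact valuation_neg_pow_div_four_eq_one A hq hq2 hA hc _
    · intro hlt
      rw [valuation_pow_div_four_eq_one A hq hq2 hA ha _] at hlt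
      exact absurd hlt (lt_irrefl _)
  · -- `q ∣ a`
    refine stepP_local_move A hσ P.freyCurve h₁ h₂ h₃ h₄ h₆ h2 P.p P.hp0 0
      ((P.a : L) ^ P.p / 4)
      (-((P.b : L) ^ P.p) / 4) (map_zero σ) (zero_mem A) (frey_rootData_a P L)
      (valuation_neg_pow_div_four_eq_one A hq hq2 hA hb _) ?_
      (valuation_pow_div_four_lt_one A hq hq2 hA P.ha0 ha P.hp0).2.le ?_ h htors hxA h' hne
    · have e : -((P.b : L) ^ P.p) / 4 - (P.a : L) ^ P.p / 4 = -((P.c : L) ^ P.p) / 4 := by
        rw [← hflt]; ring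
      rw [e]
      exact valuation_neg_pow_div_four_eq_one A hq hq2 hA hc _
    · intro hlt
      exact hnodeHyp P.a 0 _ _ P.ha0 (hvpow _) (frey_rootData_a P L) (zero_mem A)
        (valuation_neg_pow_div_four_eq_one A hq hq2 hA hb _) hlt
  · -- `q ∣ b`
    refine stepP_local_move A hσ P.freyCurve h₁ h₂ h₃ h₄ h₆ h2 P.p P.hp0 0
      (-((P.b : L) ^ P.p) / 4)
      ((P.a : L) ^ P.p / 4) (map_zero σ) (zero_mem A) (frey_rootData_b P L)
      (valuation_pow_div_four_eq_one A hq hq2 hA ha _) ?_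
      (valuation_neg_pow_div_four_lt_one A hq hq2 hA P.hb0 hb P.hp0).2.le ?_ h htors hxA h' hne
    · have e : (P.a : L) ^ P.p / 4 - -((P.b : L) ^ P.p) / 4 = (P.c : L) ^ P.p / 4 := by
        rw [← hflt]; ring
      rw [e]
      exact valuation_pow_div_four_eq_one A hq hq2 hA hc _
    · intro hlt
      exact hnodeHyp P.b 0 _ _ P.hb0 (hvnpow _) (frey_rootData_b P L) (zero_mem A)
        (valuation_pow_div_four_eq_one A hq hq2 hA ha _) hlt
  · -- `q ∣ c`
    refine stepP_local_move A hσ P.freyCurve h₁ h₂ h₃ h₄ h₆ h2 P.p P.hp0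
      ((P.a : L) ^ P.p / 4)
      (-((P.c : L) ^ P.p) / 4) (-((P.a : L) ^ P.p) / 4) (hσint _) (hmem _)
      (frey_rootData_c P L)
      (valuation_neg_pow_div_four_eq_one A hq hq2 hA ha _) ?_
      (valuation_neg_pow_div_four_lt_one A hq hq2 hA P.hc0 hc P.hp0).2.le ?_ h htors hxA h' hne
    · have e : -((P.a : L) ^ P.p) / 4 - -((P.c : L) ^ P.p) / 4 = (P.b : L) ^ P.p / 4 := by
        rw [← hflt]; ring
      rw [e]
      exact valuation_pow_div_four_eq_one A hq hq2 hA hb _
    · intro hlt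
      exact hnodeHyp P.c _ _ _ P.hc0 (hvnpow _) (frey_rootData_c P L) (hmem _)
        (valuation_neg_pow_div_four_eq_one A hq hq2 hA ha _) hlt

end FreyMove

end Fermat.Agent.S13
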