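import Fermat.Agent.S13.Interface
import Fermat.Agent.S13.AssemblyAbs
import Fermat.Agent.S13.StepPGauss
import Fermat.Agent.S13.StepPLocal
import Fermat.Agent.S13.StepPAux
import Fermat.Agent.Common.FrobProfinite

/-!
# S13, piece P5: the step at `p`  (`StmtCard → StmtTorsZero → StmtAtP`)

Let `A` be a place of `ℚ̄` over `p = P.p`, `N` a Galois-stable line of `T = E[p](ℚ̄)`.
Call a point *non-integral* if it is affine with `x ∉ A`.

* Case B: the nonzero points of `N` are integral.  For `σ ∈ I_A`, `x ∈ N`: `σ x - x ∈ N` is `0` or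
  non-integral (`stepP_frey_move`), hence `0`.  So `I_A` fixes `N` pointwise.
* Case A: the nonzero points of `N` are non-integral.  KEY (`stepP_key`): every point of `T ∖ N`
  is integral (Gauss lemma for `preΨ_p`, whose leading coefficient is `p`, against the rational
  number `∏ x(N ∖ 0)`).  For `σ ∈ I_A`, `x ∉ N`: `σ x - x` is `0` or non-integral, hence in `N`.
  So `I_A` acts trivially on `T / N`.
-/

set_option autoImplicit false
set_option linter.unusedSectionVars false
set_option linter.unusedVariables false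
set_option linter.style.haveILetI false

namespace Fermat.Agent.S13

open WeierstrassCurve WeierstrassCurve.Affine WeierstrassCurve.Affine.Point Fermat.Agent.S05
open Polynomial

section Basic

variable {K : Type*} [Field K] [DecidableEq K] {W : WeierstrassCurve K}

/-- The `x`-coordinate of a point (`0` at infinity). -/
def stepP_xc : W.toAffine.Point → K
  | .zero => 0
  | .some x _ _ => x

/-- A point is non-integral at `A` if it is affine with `x ∉ A`. -/
def stepP_NonInt (A : ValuationSubring K) : W.toAffine.Point → Prop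
  | .zero => False
  | .some x _ _ => x ∉ A

theorem stepP_nonInt_some (A : ValuationSubring K) {x y : K} (h : W.toAffine.Nonsingular x y) :
    stepP_NonInt A (Point.some x y h) ↔ x ∉ A := Iff.rfl

theorem stepP_not_nonInt_zero (A : ValuationSubring K) :
    ¬ stepP_NonInt A (0 : W.toAffine.Point) := fun h => h

theorem stepP_nonInt_neg (A : ValuationSubring K) (Q : W.toAffine.Point) :
    stepP_NonInt A (-Q) ↔ stepP_NonInt A Q := by
  cases Q with
  | zero => exact Iff.rfl
  | some x y h => exact Iff.rfl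

/-- Multiples of a non-integral point are `0` or non-integral (S05, `kernelQ_all`). -/
theorem stepP_nonInt_nsmul (A : ValuationSubring K) (h₁ : W.a₁ ∈ A) (h₂ : W.a₂ ∈ A)
    (h₃ : W.a₃ ∈ A) (h₄ : W.a₄ ∈ A) (h₆ : W.a₆ ∈ A) {Q : W.toAffine.Point}
    (hQ : stepP_NonInt A Q) (m : ℕ) : m • Q = 0 ∨ stepP_NonInt A (m • Q) := by
  cases Q with
  | zero => exact absurd hQ (stepP_not_nonInt_zero A)
  | some x y h =>
    have hx : x ∉ A := hQ
    rcases (kernelQ_all A h₁ h₂ h₃ h₄ h₆ h hx m).1 with ⟨h0, -⟩ | ⟨x', y', h', he, c, hc, hcx, -⟩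
    · exact Or.inl h0
    · right
      rw [he]
      intro hx'
      apply hx
      rw [← hcx]
      exact mul_mem hc hx'

/-- Two affine points with the same `x`-coordinate are equal or opposite. -/
theorem stepP_eq_or_eq_neg_of_xc {Q₁ Q₂ : W.toAffine.Point} (h₁ : Q₁ ≠ 0) (h₂ : Q₂ ≠ 0)
    (hx : stepP_xc Q₁ = stepP_xc Q₂) : Q₁ = Q₂ ∨ Q₁ = -Q₂ := by
  cases Q₁ with
  | zero => exact absurd rfl h₁
  | some x₁ y₁ hh₁ =>
    cases Q₂ with
    | zero => exact absurd rfl h₂
    | some x₂ y₂ hh₂ =>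
      have hx' : x₁ = x₂ := hx
      subst hx'
      rcases Affine.Y_eq_of_X_eq hh₁.1 hh₂.1 rfl with hy | hy
      · left
        subst hy
        rfl
      · right
        rw [Point.neg_some]
        subst hy
        rfl

end Basic

section Frey

variable (P : FreyPackage)

theorem stepP_p_ne_two : P.p ≠ 2 := by
  have := P.hp5
  omega

/-- The torsion condition as an `ℕ`-multiple. -/
theorem stepP_nsmul_eq_zero (x : Tors P) : P.p • (x : (P.freyCurve⁄Qbar).Point) = 0 := by
  have h := x.2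
  rw [Submodule.mem_torsionBy_iff] at h
  rw [← natCast_zsmul]
  exact h

/-- `x`-coordinates and the Galois action. -/
theorem stepP_xc_smul (σ : Gal) (Q : (P.freyCurve⁄Qbar).Point) :
    stepP_xc (σ • Q) = σ (stepP_xc Q) := by
  cases Q with
  | zero => exact (map_zero σ).symm
  | some x y h => rfl

/-- Inertia at a place over `p` moves an integral `p`-torsion point inside the kernel of
reduction. -/
theorem stepP_move (A : ValuationSubring Qbar) (hA : A.LiesOverPrime P.p) {σ : Gal}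
    (hσ : σ ∈ A.inertiaSubgroupIn ℚ) (Q : (P.freyCurve⁄Qbar).Point) (htors : P.p • Q = 0)
    (hint : ¬ stepP_NonInt A Q) : σ • Q - Q = 0 ∨ stepP_NonInt A (σ • Q - Q) := by
  cases Q with
  | zero =>
    left
    exact sub_self _
  | some x y h =>
    have hxA : x ∈ A := not_not.1 hint
    by_cases hfix : σ • (Point.some x y h : (P.freyCurve⁄Qbar).Point) = Point.some x y h
    · left
      rw [hfix, sub_self]
    · right
      rw [galois_smul_some] at hfix ⊢
      obtain ⟨x'', y'', h'', he, hlt⟩ :=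
        stepP_frey_move P P.pp (stepP_p_ne_two P) A hA hσ h htors hxA _ hfix
      rw [he]
      intro hx''
      rw [← A.valuation_le_one_iff] at hx''
      exact absurd hlt (not_lt.2 hx'')

/-- The `ZMod p`-scalars act through `ℕ`-multiples. -/
theorem stepP_zmod_smul_coe (c : ZMod P.p) (x : Tors P) :
    ((c • x : Tors P) : (P.freyCurve⁄Qbar).Point) = c.val • (x : (P.freyCurve⁄Qbar).Point) := by
  haveI : NeZero P.p := ⟨P.hp0⟩
  have h1 : c • x = c.val • x := by
    conv_lhs => rw [← ZMod.natCast_zmod_val c]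
    exact Nat.cast_smul_eq_nsmul (ZMod P.p) c.val x
  rw [h1]
  exact map_nsmul (Submodule.subtype _) c.val x

end Frey

section Key

open Classical in
/-- **KEY.** If the nonzero points of the stable line `N` are non-integral at `A | p`, then every
point of `T ∖ N` is integral. -/
theorem stepP_key (hcard : StmtCard) (hroot : StmtTorsZero) (P : FreyPackage)
    (N : Submodule (ZMod P.p) (Tors P)) (hN : IsGaloisStable ℚ N) (hbot : N ≠ ⊥)
    (A : ValuationSubring Qbar) (hA : A.LiesOverPrime P.p)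
    (hNn : ∀ x ∈ N, x ≠ 0 → stepP_NonInt A (x : (P.freyCurve⁄Qbar).Point)) :
    ∀ x : Tors P, x ≠ 0 → x ∉ N → ¬ stepP_NonInt A (x : (P.freyCurve⁄Qbar).Point) := by
  haveI : Finite (Tors P) := (hcard P).1
  letI : Fintype (Tors P) := Fintype.ofFinite _
  have hp2 := stepP_p_ne_two P
  obtain ⟨h₁, h₂, h₃, h₄, h₆⟩ := frey_coeff_mem P A P.pp hp2 hA
  -- the division polynomial
  have hpQ : ((P.p : ℤ) : Qbar) ≠ 0 := by
    have := P.hp0
    exact_mod_cast this
  have hpQ' : (P.p : Qbar) ≠ 0 := by exact_mod_cast hpQ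
  have hΨ0 : (P.freyCurve⁄Qbar).preΨ (P.p : ℤ) ≠ 0 := WeierstrassCurve.preΨ_ne_zero _ hpQ
  have hodd : ¬ Even (P.p : ℤ) := by
    rw [Int.not_even_iff_odd]
    exact_mod_cast P.hp_odd
  have hlc : ((P.freyCurve⁄Qbar).preΨ (P.p : ℤ)).leadingCoeff = (P.p : Qbar) := by
    rw [WeierstrassCurve.leadingCoeff_preΨ _ hpQ, if_neg hodd]
    push_cast
    rfl
  have hcoeff : ∀ i, ((P.freyCurve⁄Qbar).preΨ (P.p : ℤ)).coeff i ∈ A :=
    fun i => stepP_aux_coeff_mem A _ h₁ h₂ h₃ h₄ h₆ _ i
  have hgauss := stepP_gauss_roots A _ hcoeff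
  rw [hlc] at hgauss
  -- the `x`-coordinates of `N ∖ 0`
  have memval : ∀ {ξ : Qbar} {s : Finset Qbar}, ξ ∈ s.val ↔ ξ ∈ s := Iff.rfl
  set X₀ : Finset Qbar := (Finset.univ.filter (fun x : Tors P => x ∈ N ∧ x ≠ 0)).image
    (fun x : Tors P => stepP_xc (x : (P.freyCurve⁄Qbar).Point)) with hX₀
  have hmemX₀ : ∀ ξ, ξ ∈ X₀ ↔ ∃ x : Tors P, (x ∈ N ∧ x ≠ 0) ∧
      stepP_xc (x : (P.freyCurve⁄Qbar).Point) = ξ := by
    intro ξ
    rw [hX₀, Finset.mem_image]
    constructor
    · rintro ⟨x, hx, rfl⟩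
      exact ⟨x, (Finset.mem_filter.1 hx).2, rfl⟩
    · rintro ⟨x, hx, rfl⟩
      exact ⟨x, Finset.mem_filter.2 ⟨Finset.mem_univ _, hx⟩, rfl⟩
  -- roots of a torsion point
  have hrootT : ∀ x : Tors P, x ≠ 0 →
      stepP_xc (x : (P.freyCurve⁄Qbar).Point) ∈ ((P.freyCurve⁄Qbar).preΨ (P.p : ℤ)).roots := by
    rintro ⟨Q, hQ⟩ hx0
    have htors := stepP_nsmul_eq_zero P ⟨Q, hQ⟩
    cases Q with
    | zero => exact absurd rfl hx0
    | some a b h =>
      rw [mem_roots hΨ0]
      exact hroot P a b h htors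
  have hnonT : ∀ x : Tors P, stepP_NonInt A (x : (P.freyCurve⁄Qbar).Point) →
      stepP_xc (x : (P.freyCurve⁄Qbar).Point) ∉ A := by
    rintro ⟨Q, hQ⟩ hnon
    cases Q with
    | zero => exact absurd hnon (stepP_not_nonInt_zero A)
    | some a b h => exact hnon
  have hX₀root : ∀ ξ ∈ X₀, ξ ∈ ((P.freyCurve⁄Qbar).preΨ (P.p : ℤ)).roots ∧ ξ ∉ A := by
    intro ξ hξ
    obtain ⟨x, ⟨hxN, hx0⟩, rfl⟩ := (hmemX₀ ξ).1 hξ
    exact ⟨hrootT x hx0, hnonT x (hNn x hxN hx0)⟩
  have hX₀stab : ∀ σ : Gal, ∀ s ∈ X₀, σ s ∈ X₀ := by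
    intro σ s hs
    obtain ⟨x, ⟨hxN, hx0⟩, rfl⟩ := (hmemX₀ s).1 hs
    refine (hmemX₀ _).2 ⟨σ • x, ⟨hN σ x hxN, ?_⟩, ?_⟩
    · intro h0
      apply hx0
      have : σ⁻¹ • (σ • x) = σ⁻¹ • (0 : Tors P) := by rw [h0]
      rwa [inv_smul_smul, smul_zero] at this
    · exact stepP_xc_smul P σ x
  obtain ⟨v₀, hv₀N, hv₀0⟩ := Submodule.exists_mem_ne_zero_of_ne_bot hbot
  have hX₀ne : X₀.val ≠ 0 := by
    intro h0
    have hmem : stepP_xc (v₀ : (P.freyCurve⁄Qbar).Point) ∈ X₀ := (hmemX₀ _).2 ⟨v₀, ⟨hv₀N, hv₀0⟩, rfl⟩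
    rw [← memval, h0] at hmem
    exact absurd hmem (Multiset.notMem_zero _)
  have hprodval : ∏ s ∈ X₀, s = X₀.val.prod := by
    rw [Finset.prod_eq_multiset_prod, Multiset.map_id']
  obtain ⟨r, hr⟩ := stepP_aux_prod_rat X₀ hX₀stab
  have hπ : X₀.val.prod ∉ A :=
    stepP_aux_prod_not_mem A X₀.val (fun ξ hξ => (hX₀root ξ (memval.1 hξ)).2) hX₀ne
  have hπ0 : X₀.val.prod ≠ 0 := by
    intro h0
    rw [h0] at hπ
    exact hπ (zero_mem A)
  have hinv : ((P.p : Qbar) * X₀.val.prod)⁻¹ ∈ A := by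
    rw [← hprodval, ← hr]
    apply stepP_aux_rat_inv_mem A P.pp hA r
    rw [hr, hprodval]
    exact hπ
  -- multisets
  set M : Multiset Qbar :=
    (((P.freyCurve⁄Qbar).preΨ (P.p : ℤ)).roots.filter (fun ξ => ξ ∉ A)) with hM
  have hle : X₀.val ≤ M :=
    (Multiset.le_iff_subset X₀.nodup).2 (fun ξ hξ =>
      Multiset.mem_filter.2 (hX₀root ξ (memval.1 hξ)))
  have hMsplit : M = X₀.val + (M - X₀.val) := (add_tsub_cancel_of_le hle).symm
  have hprod : M.prod = X₀.val.prod * (M - X₀.val).prod := by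
    conv_lhs => rw [hMsplit]
    rw [Multiset.prod_add]
  have hrest : (M - X₀.val).prod ∈ A := by
    have e : (M - X₀.val).prod =
        ((P.p : Qbar) * X₀.val.prod)⁻¹ * ((P.p : Qbar) * M.prod) := by
      rw [hprod]
      field_simp
    rw [e]
    exact mul_mem hinv hgauss
  have hrest0 : M - X₀.val = 0 := by
    by_contra h0
    refine stepP_aux_prod_not_mem A _ (fun ξ hξ => ?_) h0 hrest
    exact (Multiset.mem_filter.1 (Multiset.mem_of_le (Multiset.sub_le_self _ _) hξ)).2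
  have hMle : M ≤ X₀.val := tsub_eq_zero_iff_le.1 hrest0
  -- conclusion
  intro x hx0 hxN hnon
  have haM : stepP_xc (x : (P.freyCurve⁄Qbar).Point) ∈ M :=
    Multiset.mem_filter.2 ⟨hrootT x hx0, hnonT x hnon⟩
  have haX : stepP_xc (x : (P.freyCurve⁄Qbar).Point) ∈ X₀ :=
    memval.1 (Multiset.mem_of_le hMle haM)
  obtain ⟨y, ⟨hyN, hy0⟩, hyx⟩ := (hmemX₀ _).1 haX
  have hx0' : (x : (P.freyCurve⁄Qbar).Point) ≠ 0 := fun h => hx0 (Subtype.ext h)
  have hy0' : (y : (P.freyCurve⁄Qbar).Point) ≠ 0 := fun h => hy0 (Subtype.ext h)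
  rcases stepP_eq_or_eq_neg_of_xc hx0' hy0' hyx.symm with h | h
  · have : x = y := Subtype.ext h
    exact hxN (this ▸ hyN)
  · have : x = -y := Subtype.ext h
    exact hxN (this ▸ N.neg_mem hyN)

end Key

section Main

/-- **P5 (step at `p`).** -/
theorem stmtAtP_of (hcard : StmtCard) (hroot : StmtTorsZero) : StmtAtP := by
  intro P N hN hbot htop
  haveI : Fact P.p.Prime := ⟨P.pp⟩
  haveI : NeZero P.p := ⟨P.hp0⟩
  obtain ⟨hfin, hc⟩ := hcard P
  haveI := hfin
  obtain ⟨A, hA⟩ := Fermat.Agent.Common.exists_liesOverPrime P.p P.pp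
  refine ⟨A, hA, ?_⟩
  have hp2 := stepP_p_ne_two P
  obtain ⟨h₁, h₂, h₃, h₄, h₆⟩ := frey_coeff_mem P A P.pp hp2 hA
  obtain ⟨v₀, hv₀N, hv₀0, hv₀⟩ := asm_line P.p hc N hbot htop
  have hv₀0' : (v₀ : (P.freyCurve⁄Qbar).Point) ≠ 0 := fun h => hv₀0 (Subtype.ext h)
  by_cases hcase : stepP_NonInt A (v₀ : (P.freyCurve⁄Qbar).Point)
  · -- Case A
    right
    have hall : ∀ x ∈ N, x ≠ 0 → stepP_NonInt A (x : (P.freyCurve⁄Qbar).Point) := by
      intro x hxN hx0
      obtain ⟨c, rfl⟩ := hv₀ x hxN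
      rw [stepP_zmod_smul_coe]
      rcases stepP_nonInt_nsmul A h₁ h₂ h₃ h₄ h₆ hcase c.val with h0 | h
      · exfalso
        apply hx0
        apply Subtype.ext
        rw [stepP_zmod_smul_coe]
        exact h0
      · exact h
    have hkey := stepP_key hcard hroot P N hN hbot A hA hall
    intro σ hσ x
    by_cases hxN : x ∈ N
    · exact N.sub_mem (hN σ x hxN) hxN
    · have hx0 : x ≠ 0 := fun h => hxN (h ▸ N.zero_mem)
      have hint := hkey x hx0 hxN
      rcases stepP_move P A hA hσ x (stepP_nsmul_eq_zero P x) hint with h0 | hnon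
      · have : σ • x - x = 0 := Subtype.ext h0
        rw [this]
        exact N.zero_mem
      · by_contra hnotin
        have hne0 : σ • x - x ≠ 0 := fun h => hnotin (h ▸ N.zero_mem)
        exact hkey (σ • x - x) hne0 hnotin hnon
  · -- Case B
    left
    have hall : ∀ x ∈ N, x ≠ 0 → ¬ stepP_NonInt A (x : (P.freyCurve⁄Qbar).Point) := by
      intro x hxN hx0 hnon
      obtain ⟨c, hxc⟩ := hv₀ x hxN
      have hc0 : c ≠ 0 := by
        rintro rfl
        rw [zero_smul] at hxc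
        exact hx0 hxc
      have hv : v₀ = c⁻¹ • x := by
        rw [hxc, smul_smul, inv_mul_cancel₀ hc0, one_smul]
      have hv' : (v₀ : (P.freyCurve⁄Qbar).Point) = (c⁻¹).val • (x : (P.freyCurve⁄Qbar).Point) := by
        conv_lhs => rw [hv]
        exact stepP_zmod_smul_coe P c⁻¹ x
      rcases stepP_nonInt_nsmul A h₁ h₂ h₃ h₄ h₆ hnon (c⁻¹).val with h0 | h
      · exact hv₀0' (hv'.trans h0)
      · rw [← hv'] at h
        exact hcase h
    intro σ hσ x hxN
    by_cases hx0 : x = 0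
    · rw [hx0, smul_zero]
    · have hint := hall x hxN hx0
      rcases stepP_move P A hA hσ x (stepP_nsmul_eq_zero P x) hint with h0 | hnon
      · have : σ • x - x = 0 := Subtype.ext h0
        exact sub_eq_zero.1 this
      · exfalso
        have hmem : σ • x - x ∈ N := N.sub_mem (hN σ x hxN) hxN
        have hne0 : σ • x - x ≠ 0 := by
          intro h
          have h' : ((σ • x - x : Tors P) : (P.freyCurve⁄Qbar).Point) = 0 := by rw [h]; rfl
          have hnon' : stepP_NonInt A ((σ • x - x : Tors P) : (P.freyCurve⁄Qbar).Point) := hnon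
          rw [h'] at hnon'
          exact stepP_not_nonInt_zero A hnon'
        exact hall _ hmem hne0 hnon

end Main

end Fermat.Agent.S13
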