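import Fermat.Agent.S13.Interface
import Fermat.Agent.S13.Minkowski

/-!
# S13, piece P7: `StmtMinkowski`

The interface statement `Fermat.Agent.S13.StmtMinkowski` of `Fermat/Agent/S13/Interface.lean`,
proved from `Fermat.Agent.S13.Minkowski.minkowski_glue`.
-/

set_option autoImplicit false

namespace Fermat.Agent.S13

/-- P7: a normal subgroup of `Gal(ℚ̄/ℚ)` that contains the pointwise stabiliser of a finite set
of algebraic numbers and, for every prime `q`, the inertia group of some place over `q`, is
everything. -/
theorem stmtMinkowski : StmtMinkowski :=
  fun K hKn hS hI => Minkowski.minkowski_glue K hKn hS hI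

end Fermat.Agent.S13
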