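import Fermat.Agent.S13.Assembly
import Fermat.Agent.S13.Torsion
import Fermat.Agent.S13.StepP
import Fermat.Agent.S13.MinkowskiStmt
import Fermat.Agent.S13.Local.FreyAtTwo
import Fermat.Agent.S13.Local.NoFixed
import Fermat.Agent.S05.FreyFix
import Fermat.Agent.S05.Tropical

/-!
# S13: final wiring

`stmtS13_of_criterion : StmtTorsZero → StmtZeroTors → StmtS13`: everything except the division
polynomial criterion (both directions) is discharged here.
-/

set_option autoImplicit false

namespace Fermat.Agent.S13

open WeierstrassCurve WeierstrassCurve.Affine WeierstrassCurve.Affine.Point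

/-- S05 in the interface shape. -/
theorem stmtUnram : StmtUnram := by
  intro P q hq hq2 hqp
  refine Fermat.Agent.S05.frey_unramified_of_tropical P hq hq2 hqp ?_
  intro A hA r₁ e₂ e₃ hr hr₁ he₃ he₂ he₂0 x y h htors hx
  exact Fermat.Agent.S05.tropical_torsion A.valuation hr.hb₂ hr.hb₄ hr.hb₆
    (Fermat.Agent.S05.valuation_two_eq_one A hq hA hq2) he₃ he₂ he₂0 P.hp_odd h htors hx

/-- The criterion in the shape used by `Torsion.lean`. -/
theorem wiring_criterion (h1 : StmtTorsZero) (h2 : StmtZeroTors) :
    ∀ (P : FreyPackage) (x y : Qbar) (h : (P.freyCurve⁄Qbar).Nonsingular x y),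
      P.p • (Point.some x y h : (P.freyCurve⁄Qbar).Point) = 0 ↔
        ((P.freyCurve.baseChange Qbar).preΨ P.p).eval x = 0 :=
  fun P x y h => ⟨h1 P x y h, h2 P x y h⟩

/-- **S13 from the division polynomial criterion.** -/
theorem stmtS13_of_criterion (h1 : StmtTorsZero) (h2 : StmtZeroTors) : StmtS13 :=
  assembly (stmtNontrivial_of_criterion (wiring_criterion h1 h2))
    (stmtCard_of_criterion (wiring_criterion h1 h2)) stmtUnram stmtAtTwo stmtNoFixed
    (stmtAtP_of (stmtCard_of_criterion (wiring_criterion h1 h2)) h1) stmtMinkowski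

end Fermat.Agent.S13
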