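import Fermat.Agent.S13.Interface
import Fermat.Agent.S13.AssemblyAbs
import Fermat.Agent.Common.FrobProfinite

/-!
# S13: assembly (piece P8)

`assembly : StmtNontrivial → StmtCard → StmtUnram → StmtAtTwo → StmtNoFixed → StmtAtP →
  StmtMinkowski → StmtS13`.
-/

set_option autoImplicit false
set_option linter.style.haveILetI false

namespace Fermat.Agent.S13

open WeierstrassCurve WeierstrassCurve.Affine WeierstrassCurve.Affine.Point

/-- The coordinates of a point. -/
noncomputable def asmCoords (W : WeierstrassCurve ℚ) : (W⁄Qbar).Point → Finset Qbar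
  | .zero => ∅
  | .some x y _ => {x, y}

theorem asm_some_eq_some {W : Affine Qbar} {x y x' y' : Qbar} {h : W.Nonsingular x y}
    {h' : W.Nonsingular x' y'} (hx : x = x') (hy : y = y') :
    Affine.Point.some x y h = Affine.Point.some x' y' h' := by
  subst hx hy
  rfl

/-- An automorphism fixing the coordinates of a point fixes the point. -/
theorem asm_smul_eq_of_coords (W : WeierstrassCurve ℚ) (σ : Gal) (Q : (W⁄Qbar).Point)
    (h : ∀ s ∈ asmCoords W Q, σ s = s) : σ • Q = Q := by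
  rw [algEquiv_smul_def]
  cases Q with
  | zero => rfl
  | some x y hxy =>
    have hx : σ x = x := h x (by simp [asmCoords])
    have hy : σ y = y := h y (by simp [asmCoords])
    rw [Point.map_some]
    exact asm_some_eq_some hx hy

/-- The action on `E[p]` factors through the stabiliser of a finite set of algebraic numbers. -/
theorem asm_exists_finset (P : FreyPackage) [Finite (Tors P)] :
    ∃ S : Finset Qbar, ∀ σ : Gal, (∀ s ∈ S, σ s = s) → ∀ x : Tors P, σ • x = x := by
  letI : Fintype (Tors P) := Fintype.ofFinite _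
  refine ⟨Finset.univ.biUnion fun x : Tors P => asmCoords P.freyCurve x.1, fun σ hσ x => ?_⟩
  apply Subtype.ext
  show σ • (x : (P.freyCurve⁄Qbar).Point) = x
  refine asm_smul_eq_of_coords P.freyCurve σ x.1 fun s hs => hσ s ?_
  exact Finset.mem_biUnion.2 ⟨x, Finset.mem_univ x, hs⟩

/-- **S13 from its pieces.** -/
theorem assembly (h1 : StmtNontrivial) (h2 : StmtCard) (h3 : StmtUnram) (h4 : StmtAtTwo)
    (h5 : StmtNoFixed) (h6 : StmtAtP) (h7 : StmtMinkowski) : StmtS13 := by
  intro P hred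
  haveI : Fact P.p.Prime := ⟨P.pp⟩
  haveI := h1 P
  obtain ⟨hfin, hcard⟩ := h2 P
  haveI := hfin
  -- a stable line
  have hex : ∃ N : Submodule (ZMod P.p) (Tors P), IsGaloisStable ℚ N ∧ N ≠ ⊥ ∧ N ≠ ⊤ := by
    by_contra hcon
    refine hred ⟨h1 P, fun N hN => ?_⟩
    by_contra h
    rw [not_or] at h
    exact hcon ⟨N, hN, h.1, h.2⟩
  obtain ⟨N, hN, hbot, htop⟩ := hex
  have hstab : ∀ σ : Gal, ∀ x ∈ N, σ • x ∈ N := hN
  -- the action factors through a finite quotient
  obtain ⟨S, hS⟩ := asm_exists_finset P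
  have hS1 : ∀ σ : Gal, (∀ s ∈ S, σ s = s) → σ ∈ asmFix (G := Gal) N :=
    fun σ hσ x _ => hS σ hσ x
  have hS2 : ∀ σ : Gal, (∀ s ∈ S, σ s = s) → σ ∈ asmCofix N hstab := fun σ hσ x =>
    asm_sub_mem_of_fix N σ x (hS σ hσ x)
  -- inertia away from `p`
  have hp2 : P.p ≠ 2 := by have := P.hp5; omega
  have haway : ∀ q : ℕ, q.Prime → q ≠ P.p → ∃ A : ValuationSubring Qbar, A.LiesOverPrime q ∧
      A.inertiaSubgroupIn ℚ ≤ asmFix (G := Gal) N ∧
      A.inertiaSubgroupIn ℚ ≤ asmCofix N hstab := by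
    intro q hq hqp
    by_cases hq2 : q = 2
    · subst hq2
      obtain ⟨A, hA, hun⟩ := h4 P
      exact ⟨A, hA, fun σ hσ => asm_unip_fix P.p hcard N hstab hbot htop σ (hun σ hσ),
        fun σ hσ => asm_unip_cofix P.p hcard N hstab hbot htop σ (hun σ hσ)⟩
    · obtain ⟨A, hA⟩ := Fermat.Agent.Common.exists_liesOverPrime q hq
      have hun := h3 P q hq hq2 hqp A hA
      exact ⟨A, hA, fun σ hσ x _ => hun σ hσ x,
        fun σ hσ x => asm_sub_mem_of_fix N σ x (hun σ hσ x)⟩
  -- inertia at `p`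
  obtain ⟨A, hA, hor⟩ := h6 P N hN hbot htop
  rcases hor with h | h
  · -- `Gal` fixes `N` pointwise: impossible
    exfalso
    have htopK : asmFix (G := Gal) N = ⊤ := by
      refine h7 _ (asmFix_normal N hstab) ⟨S, hS1⟩ fun q hq => ?_
      by_cases hqp : q = P.p
      · subst hqp
        exact ⟨A, hA, fun σ hσ => h σ hσ⟩
      · obtain ⟨B, hB, hB1, -⟩ := haway q hq hqp
        exact ⟨B, hB, hB1⟩
    obtain ⟨v, hvN, hv0, -⟩ := asm_line P.p hcard N hbot htop
    refine hv0 (h5 P v fun σ => ?_)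
    have hσ : σ ∈ asmFix (G := Gal) N := by rw [htopK]; exact Subgroup.mem_top σ
    exact hσ v hvN
  · -- `Gal` acts trivially on `T ⧸ N`
    have htopK : asmCofix N hstab = ⊤ := by
      refine h7 _ (asmCofix_normal N hstab) ⟨S, hS2⟩ fun q hq => ?_
      by_cases hqp : q = P.p
      · subst hqp
        exact ⟨A, hA, fun σ hσ => h σ hσ⟩
      · obtain ⟨B, hB, -, hB2⟩ := haway q hq hqp
        exact ⟨B, hB, hB2⟩
    refine ⟨N, hN, hbot, htop, fun σ x => ?_⟩
    have hσ : σ ∈ asmCofix N hstab := by rw [htopK]; exact Subgroup.mem_top σ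
    exact hσ x

end Fermat.Agent.S13
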