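import Mathlib

/-!
# S13, P5 piece R1: the division polynomials `preΨ' n` of an integral model have integral
coefficients

`stepP_prePsi_coeff_mem`: if the Weierstrass coefficients of `W` lie in a valuation subring `A`,
so do all coefficients of `W.preΨ' n`.  (Model over `↥A` + `WeierstrassCurve.map_preΨ'`.)
-/

set_option autoImplicit false

namespace Fermat.Agent.S13

open Polynomial

/-- The coefficients of `preΨ' n` of a Weierstrass curve with coefficients in a subring lie in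
that subring. -/
theorem stepP_prePsi_coeff_mem_subring {L : Type*} [Field L] (R : Subring L)
    (W : WeierstrassCurve L)
    (h₁ : W.a₁ ∈ R) (h₂ : W.a₂ ∈ R) (h₃ : W.a₃ ∈ R) (h₄ : W.a₄ ∈ R) (h₆ : W.a₆ ∈ R)
    (n i : ℕ) : (W.preΨ' n).coeff i ∈ R := by
  let W₀ : WeierstrassCurve R := ⟨⟨W.a₁, h₁⟩, ⟨W.a₂, h₂⟩, ⟨W.a₃, h₃⟩, ⟨W.a₄, h₄⟩, ⟨W.a₆, h₆⟩⟩
  have hW : W₀.map R.subtype = W := by
    ext <;> rfl
  rw [← hW, WeierstrassCurve.map_preΨ', Polynomial.coeff_map]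
  exact ((W₀.preΨ' n).coeff i).2

/-- **R1.** The coefficients of `preΨ' n` of a Weierstrass curve with coefficients in a valuation
subring `A` lie in `A`. -/
theorem stepP_prePsi_coeff_mem {L : Type*} [Field L] (A : ValuationSubring L)
    (W : WeierstrassCurve L)
    (h₁ : W.a₁ ∈ A) (h₂ : W.a₂ ∈ A) (h₃ : W.a₃ ∈ A) (h₄ : W.a₄ ∈ A) (h₆ : W.a₆ ∈ A)
    (n i : ℕ) : (W.preΨ' n).coeff i ∈ A :=
  stepP_prePsi_coeff_mem_subring A.toSubring W h₁ h₂ h₃ h₄ h₆ n i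

/-- Variant for `preΨ` (integer index). -/
theorem stepP_prePsiInt_coeff_mem {L : Type*} [Field L] (A : ValuationSubring L)
    (W : WeierstrassCurve L)
    (h₁ : W.a₁ ∈ A) (h₂ : W.a₂ ∈ A) (h₃ : W.a₃ ∈ A) (h₄ : W.a₄ ∈ A) (h₆ : W.a₆ ∈ A)
    (n : ℤ) (i : ℕ) : (W.preΨ n).coeff i ∈ A := by
  let W₀ : WeierstrassCurve A.toSubring :=
    ⟨⟨W.a₁, h₁⟩, ⟨W.a₂, h₂⟩, ⟨W.a₃, h₃⟩, ⟨W.a₄, h₄⟩, ⟨W.a₆, h₆⟩⟩
  have hW : W₀.map A.toSubring.subtype = W := by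
    ext <;> rfl
  rw [← hW, WeierstrassCurve.map_preΨ, Polynomial.coeff_map]
  exact ((W₀.preΨ n).coeff i).2

end Fermat.Agent.S13
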