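import Mathlib
import Fermat.Prelude.Def_FLTPrelim_Ramification
import Fermat.Agent.S05.FreyArith
import Fermat.Agent.S51.GaloisFixed

/-!
# S13, piece P5, part R2: rational numbers at a place over `q`, Galois-stable products

* `stepP_rat_inv_mem`: for a valuation subring `A` of `L` over a prime `q` and a rational number
  `r` whose image is not in `A`, the element `(q * r)⁻¹` lies in `A` (i.e. `v q * v r ≥ 1`).
* `stepP_prod_rat`: the product of a Galois-stable finite set of algebraic numbers is rational.
-/

set_option autoImplicit false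

namespace Fermat.Agent.S13

open Fermat.Agent.S05

section Rat

variable {L : Type*} [Field L] [Algebra ℚ L]

/-- A rational number which is not integral at a place `A` over `q` has `v q * v r ≥ 1`:
`(q * r)⁻¹ ∈ A`. -/
theorem stepP_rat_inv_mem (A : ValuationSubring L) {q : ℕ} (hq : q.Prime)
    (hA : A.LiesOverPrime q) (r : ℚ) (hr : algebraMap ℚ L r ∉ A) :
    ((q : L) * algebraMap ℚ L r)⁻¹ ∈ A := by
  have hchar : CharZero L := algebraRat.charZero L
  set m : ℤ := r.num with hm
  set n : ℕ := r.den with hn
  have hn0 : (n : L) ≠ 0 := by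
    have : n ≠ 0 := r.den_nz
    exact_mod_cast this
  have hrdef : algebraMap ℚ L r = (m : L) / (n : L) := by
    rw [eq_ratCast, Rat.cast_def]
  -- `q ∣ n`
  have hqn : q ∣ n := by
    by_contra hcon
    have hv : A.valuation (n : L) = 1 := (valuation_natCast_eq_one_iff A hq hA n).2 hcon
    apply hr
    rw [hrdef, ← A.valuation_le_one_iff, map_div₀, hv, div_one, A.valuation_le_one_iff]
    exact intCast_mem A m
  -- `q ∤ m`
  have hqm : ¬ (q : ℤ) ∣ m := by
    intro hdvd
    have h1 : q ∣ m.natAbs := Int.natCast_dvd.mp hdvd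
    have h3 : Nat.Coprime m.natAbs n := r.reduced
    have := Nat.dvd_gcd h1 hqn
    rw [h3] at this
    exact hq.one_lt.ne' (Nat.dvd_one.mp this)
  have hvm : A.valuation (m : L) = 1 := (valuation_intCast_eq_one_iff A hq hA m).2 hqm
  have hm0 : (m : L) ≠ 0 := by
    intro h0
    rw [h0, map_zero] at hvm
    exact zero_ne_one hvm
  obtain ⟨d, hd⟩ := hqn
  have hq0 : (q : L) ≠ 0 := by
    have : q ≠ 0 := hq.ne_zero
    exact_mod_cast this
  have hd0 : (d : L) ≠ 0 := by
    intro h0
    apply hn0
    rw [hd]
    push_cast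
    rw [h0, mul_zero]
  have key : ((q : L) * algebraMap ℚ L r)⁻¹ = (d : L) / (m : L) := by
    rw [hrdef, hd]
    push_cast
    field_simp
  rw [key, ← A.valuation_le_one_iff, map_div₀, hvm, div_one, A.valuation_le_one_iff]
  exact natCast_mem A d

end Rat

section Prod

/-- The product of a Galois-stable finite set of algebraic numbers is rational. -/
theorem stepP_prod_rat (S : Finset (AlgebraicClosure ℚ))
    (hS : ∀ σ : AlgebraicClosure ℚ ≃ₐ[ℚ] AlgebraicClosure ℚ, ∀ s ∈ S, σ s ∈ S) :
    ∃ r : ℚ, algebraMap ℚ (AlgebraicClosure ℚ) r = ∏ s ∈ S, s := by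
  classical
  apply Fermat.Agent.S51.galois_fixed_rat
  intro σ
  rw [map_prod]
  have himg : S.image (fun s => σ s) = S := by
    apply Finset.eq_of_subset_of_card_le
    · intro t ht
      obtain ⟨s, hs, rfl⟩ := Finset.mem_image.1 ht
      exact hS σ s hs
    · rw [Finset.card_image_of_injective _ σ.injective]
  calc ∏ s ∈ S, σ s = ∏ t ∈ S.image (fun s => σ s), t := by
        rw [Finset.prod_image]
        intro a _ b _ hab
        exact σ.injective hab
    _ = ∏ s ∈ S, s := by rw [himg]

end Prod

end Fermat.Agent.S13
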